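import Fermat.Agent.S14.Defs

/-!
# S14, task T01: a non-principal ideal class of order `p` and type `ω²` gives a surjective
homomorphism `Cl(K) → ℤ/p` of type `ω²`
-/

set_option autoImplicit false
set_option linter.style.haveILetI false

namespace Fermat.Agent.S14

open NumberField


theorem classHom_nsmul_congr {A : Type*} [AddCommGroup A] {p : ℕ} {c : A} (hpc : p • c = 0)
    {n m : ℕ} (h : (n : ZMod p) = m) : n • c = m • c := by
  rw [nsmul_eq_nsmul_iff_modEq]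
  exact ((ZMod.natCast_eq_natCast_iff n m p).1 h).of_dvd (addOrderOf_dvd_of_nsmul_eq_zero hpc)

theorem classHom_dual {k V : Type*} [Field k] [AddCommGroup V] [Module k V] (v : V) (hv : v ≠ 0) :
    ∃ g : V →ₗ[k] k, g v ≠ 0 := by
  by_contra h
  rw [not_exists] at h
  exact hv ((Module.forall_dual_apply_eq_zero_iff k v).1 fun g => not_not.1 (h g))

theorem classHom_sep {A : Type*} [AddCommGroup A] (p : ℕ) [Fact p.Prime] (x : A)
    (hx : ∀ e : A, x ≠ p • e) : ∃ f : A →+ ZMod p, f x ≠ 0 := by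
  let B : AddSubgroup A := (nsmulAddMonoidHom (α := A) p).range
  have hQ : ∀ y : A ⧸ B, p • y = 0 := by
    intro y
    obtain ⟨y, rfl⟩ := QuotientAddGroup.mk_surjective y
    rw [← QuotientAddGroup.mk_nsmul, QuotientAddGroup.eq_zero_iff]
    exact ⟨y, rfl⟩
  letI : Module (ZMod p) (A ⧸ B) := AddCommGroup.zmodModule hQ
  have hne : (QuotientAddGroup.mk x : A ⧸ B) ≠ 0 := by
    rw [Ne, QuotientAddGroup.eq_zero_iff]
    rintro ⟨e, he⟩
    exact hx e he.symm
  obtain ⟨g, hg⟩ := classHom_dual (k := ZMod p) _ hne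
  exact ⟨g.toAddMonoidHom.comp (QuotientAddGroup.mk' B), hg⟩

theorem classHom_depth {A : Type*} [AddCommGroup A] [Finite A] (p : ℕ) [Fact p.Prime] (c : A)
    (hc : c ≠ 0) (hpc : p • c = 0) :
    ∃ (k : ℕ) (d : A), c = p ^ k • d ∧ ∀ e : A, c ≠ p ^ (k + 1) • e := by
  classical
  have hp : p.Prime := Fact.out
  have hex : ∃ j : ℕ, ¬ ∃ e : A, c = p ^ j • e := by
    obtain ⟨a, m, hm, hcard⟩ := Nat.exists_eq_pow_mul_and_not_dvd (n := Nat.card A)
      Nat.card_pos.ne' p hp.ne_one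
    refine ⟨a, ?_⟩
    rintro ⟨e, he⟩
    apply hc
    have h1 : m • c = 0 := by
      rw [he, smul_smul, mul_comm, ← hcard]
      exact card_nsmul_eq_zero'
    have h2 : addOrderOf c ∣ m := addOrderOf_dvd_of_nsmul_eq_zero h1
    have h3 : addOrderOf c ∣ p := addOrderOf_dvd_of_nsmul_eq_zero hpc
    have h4 : addOrderOf c = 1 := by
      rcases (Nat.dvd_prime hp).1 h3 with h | h
      · exact h
      · exact absurd (h ▸ h2) hm
    exact AddMonoid.addOrderOf_eq_one_iff.1 h4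
  have h0 : Nat.find hex ≠ 0 := by
    intro h
    have := Nat.find_spec hex
    rw [h] at this
    exact this ⟨c, by simp⟩
  obtain ⟨k, hk⟩ := Nat.exists_eq_succ_of_ne_zero h0
  have h1 := Nat.find_min hex (m := k) (by omega)
  rw [not_not] at h1
  obtain ⟨d, hd⟩ := h1
  refine ⟨k, d, hd, fun e he => ?_⟩
  have := Nat.find_spec hex
  rw [hk] at this
  exact this ⟨e, he⟩

theorem classHom_abstract {A G : Type*} [AddCommGroup A] [Finite A] [Group G] [Fintype G] (p : ℕ)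
    [Fact p.Prime] (hG : ¬ p ∣ Fintype.card G) (act : G → A →+ A)
    (hact : ∀ σ τ x, act (σ * τ) x = act σ (act τ x)) (ψ : G →* (ZMod p)ˣ) (c : A) (hc : c ≠ 0)
    (hpc : p • c = 0) (hψ : ∀ σ, act σ c = ((ψ σ : ZMod p).val) • c) :
    ∃ φ : A →+ ZMod p, φ ≠ 0 ∧ ∀ σ x, φ (act σ x) = (ψ σ : ZMod p) * φ x := by
  classical
  have hp : p.Prime := Fact.out
  obtain ⟨k, d, hd, hk⟩ := classHom_depth p c hc hpc
  let u : G → ZMod p := fun τ => (((ψ τ)⁻¹ : (ZMod p)ˣ) : ZMod p)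
  let d' : A := ∑ τ, (u τ).val • act τ d
  have hd' : ∀ e : A, d' ≠ p • e := by
    intro e he
    have h1 : p ^ k • d' = Fintype.card G • c := by
      simp only [d', Finset.smul_sum]
      rw [Finset.card_univ.symm, ← Finset.sum_const]
      refine Finset.sum_congr rfl fun τ _ => ?_
      rw [smul_comm, ← map_nsmul, ← hd, hψ, smul_smul]
      conv_rhs => rw [← one_smul ℕ c]
      apply classHom_nsmul_congr hpc
      push_cast
      rw [ZMod.natCast_zmod_val, ZMod.natCast_zmod_val]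
      show (((ψ τ)⁻¹ : (ZMod p)ˣ) : ZMod p) * ((ψ τ : (ZMod p)ˣ) : ZMod p) = 1
      rw [← Units.val_mul, inv_mul_cancel, Units.val_one]
    have hcop : IsCoprime (Fintype.card G : ℤ) (p : ℤ) := by
      rw [Nat.isCoprime_iff_coprime]
      exact ((Nat.Prime.coprime_iff_not_dvd hp).2 hG).symm
    obtain ⟨a, b, hab⟩ := hcop
    apply hk (a • e)
    have h2 : c = a • (Fintype.card G • c) + b • (p • c) := by
      rw [← natCast_zsmul, ← natCast_zsmul, smul_smul, smul_smul, ← add_smul, hab, one_smul]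
    rw [h2, hpc, smul_zero, add_zero, ← h1, he, smul_smul, ← pow_succ, smul_comm]
  obtain ⟨f, hf⟩ := classHom_sep p d' hd'
  let φ : A →+ ZMod p := ∑ τ, (AddMonoidHom.mulLeft (u τ)).comp (f.comp (act τ))
  have hφ : ∀ x, φ x = ∑ τ, u τ * f (act τ x) := by
    intro x
    simp [φ, AddMonoidHom.finsetSum_apply]
  refine ⟨φ, ?_, ?_⟩
  · intro h0
    apply hf
    have h1 : φ d = f d' := by
      rw [hφ]
      simp only [d', map_sum, map_nsmul, nsmul_eq_mul, ZMod.natCast_zmod_val]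
    rw [← h1, h0]
    rfl
  · intro σ x
    rw [hφ, hφ, Finset.mul_sum,
      ← Equiv.sum_comp (Equiv.mulRight σ) (fun τ' => ((ψ σ : (ZMod p)ˣ) : ZMod p) * (u τ' * f (act τ' x)))]
    refine Finset.sum_congr rfl fun τ _ => ?_
    rw [Equiv.coe_mulRight, hact, ← mul_assoc]
    congr 1
    show (((ψ τ)⁻¹ : (ZMod p)ˣ) : ZMod p) =
      ((ψ σ : (ZMod p)ˣ) : ZMod p) * (((ψ (τ * σ))⁻¹ : (ZMod p)ˣ) : ZMod p)
    rw [← Units.val_mul, map_mul, mul_inv, mul_comm (ψ τ)⁻¹, mul_inv_cancel_left]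


section act

variable {R : Type*} [CommRing R] [IsDedekindDomain R]

open scoped nonZeroDivisors

/-- the action of a ring automorphism on nonzero ideals. -/
def classHomMapNZ (g : R ≃+* R) : (Ideal R)⁰ →* (Ideal R)⁰ where
  toFun J := ⟨(J : Ideal R).map (g : R →+* R), mem_nonZeroDivisors_iff_ne_zero.2 (by
    have hJ : (J : Ideal R) ≠ 0 := mem_nonZeroDivisors_iff_ne_zero.1 J.2
    intro h
    exact hJ ((Ideal.map_eq_bot_iff_of_injective g.injective).1 h))⟩
  map_one' := Subtype.ext (by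
    show Ideal.map (g : R →+* R) 1 = 1
    rw [Ideal.one_eq_top, Ideal.map_top])
  map_mul' J J' := Subtype.ext (Ideal.map_mul _ _ _)

theorem coe_classHomMapNZ (g : R ≃+* R) (J : (Ideal R)⁰) :
    ((classHomMapNZ g J : (Ideal R)⁰) : Ideal R) = (J : Ideal R).map (g : R →+* R) := rfl

theorem classHom_welldef (g : R ≃+* R) {J J' : (Ideal R)⁰}
    (h : ClassGroup.mk0 J = ClassGroup.mk0 J') :
    ClassGroup.mk0 (classHomMapNZ g J) = ClassGroup.mk0 (classHomMapNZ g J') := by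
  rw [ClassGroup.mk0_eq_mk0_iff] at h ⊢
  obtain ⟨x, y, hx, hy, hxy⟩ := h
  refine ⟨g x, g y, by simpa using hx, by simpa using hy, ?_⟩
  have h1 := congrArg (Ideal.map (g : R →+* R)) hxy
  rw [Ideal.map_mul, Ideal.map_mul, Ideal.map_span, Ideal.map_span, Set.image_singleton,
    Set.image_singleton] at h1
  exact h1

theorem classHom_surjInv (g : R ≃+* R) (J : (Ideal R)⁰) :
    ClassGroup.mk0 (classHomMapNZ g
      (Function.surjInv ClassGroup.mk0_surjective (ClassGroup.mk0 J))) =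
      ClassGroup.mk0 (classHomMapNZ g J) :=
  classHom_welldef g (Function.surjInv_eq ClassGroup.mk0_surjective _)

/-- the action of a ring automorphism on the class group. -/
noncomputable def classHomAct (g : R ≃+* R) : ClassGroup R →* ClassGroup R where
  toFun x := ClassGroup.mk0 (classHomMapNZ g (Function.surjInv ClassGroup.mk0_surjective x))
  map_one' := by
    have h := classHom_surjInv g (1 : (Ideal R)⁰)
    rw [map_one, map_one, map_one] at h
    exact h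
  map_mul' x y := by
    obtain ⟨J, rfl⟩ := ClassGroup.mk0_surjective x
    obtain ⟨J', rfl⟩ := ClassGroup.mk0_surjective y
    rw [← map_mul, classHom_surjInv, classHom_surjInv, classHom_surjInv, map_mul, map_mul]

theorem classHomAct_mk0 (g : R ≃+* R) (J : (Ideal R)⁰) :
    classHomAct g (ClassGroup.mk0 J) = ClassGroup.mk0 (classHomMapNZ g J) :=
  classHom_surjInv g J

end act

variable {K : Type*} [Field K] [NumberField K]

theorem classHom_cast_eq {p : ℕ} [Fact p.Prime] {ζ : K} (hζ : IsPrimitiveRoot ζ p)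
    (σ : K ≃ₐ[ℚ] K) (t : ℕ) (ht : σ ζ = ζ ^ t) : (t : ZMod p) = (hζ.autToPow ℚ σ : ZMod p) := by
  have hp : p.Prime := Fact.out
  have h1 : ζ ^ (t % p) = ζ ^ (hζ.autToPow ℚ σ : ZMod p).val := by
    rw [hζ.autToPow_spec ℚ σ, ht]
    conv_rhs => rw [← Nat.mod_add_div t p, pow_add, pow_mul, hζ.pow_eq_one, one_pow, mul_one]
  have h2 := hζ.pow_inj (Nat.mod_lt _ hp.pos) (ZMod.val_lt _) h1
  rw [← ZMod.natCast_mod, h2, ZMod.natCast_zmod_val]

theorem exists_phi {p : ℕ} [Fact p.Prime] [IsCyclotomicExtension {p} ℚ K] {ζ : K}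
    (hζ : IsPrimitiveRoot ζ p) (I : Ideal (𝓞 K)) (hI0 : I ≠ ⊥) (hIp : (I ^ p).IsPrincipal)
    (htype : ∀ (σ : K ≃ₐ[ℚ] K) (t : ℕ), σ ζ = ζ ^ t → ∃ x y : 𝓞 K, x ≠ 0 ∧ y ≠ 0 ∧
      Ideal.span {x} * I.map (sigO σ : 𝓞 K →+* 𝓞 K) = Ideal.span {y} * I ^ (t ^ 2))
    (hnp : ¬ I.IsPrincipal) :
    ∃ φ : ClassGroup (𝓞 K) →* Multiplicative (ZMod p), Function.Surjective φ ∧
      IsHomTypeSq p ζ φ := by
  classical
  have hp : p.Prime := Fact.out
  letI : Fintype (K ≃ₐ[ℚ] K) := Fintype.ofFinite _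
  have hInz : I ∈ nonZeroDivisors (Ideal (𝓞 K)) := mem_nonZeroDivisors_iff_ne_zero.2 hI0
  -- the group order
  have hG : ¬ p ∣ Fintype.card (K ≃ₐ[ℚ] K) := by
    have h1 := Subgroup.card_dvd_of_injective (hζ.autToPow ℚ) (hζ.autToPow_injective ℚ)
    rw [Nat.card_eq_fintype_card, Nat.card_eq_fintype_card, ZMod.card_units_eq_totient,
      Nat.totient_prime hp] at h1
    intro h2
    have h3 := Nat.le_of_dvd (by have := hp.two_le; omega) (h2.trans h1)
    have := hp.two_le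
    omega
  let act : (K ≃ₐ[ℚ] K) → Additive (ClassGroup (𝓞 K)) →+ Additive (ClassGroup (𝓞 K)) :=
    fun σ => MonoidHom.toAdditive (classHomAct (sigO σ))
  have hact_mk0 : ∀ (σ : K ≃ₐ[ℚ] K) (J : nonZeroDivisors (Ideal (𝓞 K))),
      act σ (Additive.ofMul (ClassGroup.mk0 J)) =
        Additive.ofMul (ClassGroup.mk0 (classHomMapNZ (sigO σ) J)) := by
    intro σ J
    show Additive.ofMul (classHomAct (sigO σ) (ClassGroup.mk0 J)) = _
    rw [classHomAct_mk0]
  have hact : ∀ σ τ x, act (σ * τ) x = act σ (act τ x) := by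
    intro σ τ x
    obtain ⟨J, hJ⟩ := ClassGroup.mk0_surjective (Additive.toMul x)
    have hx : x = Additive.ofMul (ClassGroup.mk0 J) := by rw [hJ]; rfl
    rw [hx, hact_mk0, hact_mk0, hact_mk0]
    congr 2
    apply Subtype.ext
    rw [coe_classHomMapNZ, coe_classHomMapNZ, coe_classHomMapNZ, Ideal.map_map]
    rfl
  let ψ : (K ≃ₐ[ℚ] K) →* (ZMod p)ˣ := (powMonoidHom 2).comp (hζ.autToPow ℚ)
  have hψ : ∀ σ, ((ψ σ : (ZMod p)ˣ) : ZMod p) = (hζ.autToPow ℚ σ : ZMod p) ^ 2 := fun σ => rfl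
  let c : Additive (ClassGroup (𝓞 K)) := Additive.ofMul (ClassGroup.mk0 ⟨I, hInz⟩)
  have hc : c ≠ 0 := by
    intro h
    exact hnp ((ClassGroup.mk0_eq_one_iff hInz).1 h)
  have hpc : p • c = 0 := by
    show Additive.ofMul (ClassGroup.mk0 ⟨I, hInz⟩ ^ p) = 0
    rw [← map_pow]
    have : ((⟨I, hInz⟩ : nonZeroDivisors (Ideal (𝓞 K))) ^ p) = ⟨I ^ p, pow_mem hInz p⟩ := rfl
    rw [this, (ClassGroup.mk0_eq_one_iff (pow_mem hInz p)).2 hIp]
    rfl
  have hcψ : ∀ σ, act σ c = ((ψ σ : ZMod p).val) • c := by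
    intro σ
    obtain ⟨x, y, hx, hy, hxy⟩ := htype σ _ (hζ.autToPow_spec ℚ σ).symm
    have h1 : act σ c = ((hζ.autToPow ℚ σ : ZMod p).val ^ 2) • c := by
      rw [hact_mk0]
      show _ = Additive.ofMul (ClassGroup.mk0 ⟨I, hInz⟩ ^ ((hζ.autToPow ℚ σ : ZMod p).val ^ 2))
      rw [← map_pow]
      congr 1
      rw [ClassGroup.mk0_eq_mk0_iff]
      exact ⟨x, y, hx, hy, hxy⟩
    rw [h1]
    apply classHom_nsmul_congr hpc
    rw [ZMod.natCast_zmod_val, hψ]
    push_cast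
    rw [ZMod.natCast_zmod_val]
  obtain ⟨φ, hφ0, hφ⟩ := classHom_abstract p hG act hact ψ c hc hpc hcψ
  refine ⟨AddMonoidHom.toMultiplicativeRight φ, ?_, ?_⟩
  · obtain ⟨x, hx⟩ : ∃ x, φ x ≠ 0 := by
      by_contra h
      rw [not_exists] at h
      exact hφ0 (DFunLike.ext _ _ fun x => not_not.1 (h x))
    intro y
    refine ⟨Additive.toMul ((Multiplicative.toAdd y / φ x).val • x), ?_⟩
    show Multiplicative.ofAdd (φ ((Multiplicative.toAdd y / φ x).val • x)) = y
    rw [map_nsmul, nsmul_eq_mul, ZMod.natCast_zmod_val, div_mul_cancel₀ _ hx]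
    rfl
  · intro σ t ht J J' hJJ'
    have h1 : J' = classHomMapNZ (sigO σ) J := Subtype.ext hJJ'
    show Multiplicative.ofAdd (φ (Additive.ofMul (ClassGroup.mk0 J'))) =
      Multiplicative.ofAdd (φ (Additive.ofMul (ClassGroup.mk0 J))) ^ (t ^ 2)
    rw [h1, ← hact_mk0, hφ, hψ, ← classHom_cast_eq hζ σ t ht, ← ofAdd_nsmul, nsmul_eq_mul]
    push_cast
    rfl

end Fermat.Agent.S14
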