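import Fermat.Agent.S14.Defs

/-!
# S14: small lemmas for the assembly of the core theorem (tasks C1–C3, A1–A3)
-/

set_option autoImplicit false

namespace Fermat.Agent.S14

open NumberField IsDedekindDomain

variable {K : Type*} [Field K] [NumberField K]

/-- C0: an element of `K` whose `p`-th power is a unit of `𝓞 K` is a unit of `𝓞 K`. -/
theorem exists_unit_of_pow_eq {p : ℕ} (hp : p ≠ 0) (x : K) (ε : (𝓞 K)ˣ)
    (h : x ^ p = ((ε : 𝓞 K) : K)) : ∃ δ : (𝓞 K)ˣ, ((δ : 𝓞 K) : K) = x := by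
  have hint : IsIntegral ℤ x := by
    refine IsIntegral.of_pow (Nat.pos_of_ne_zero hp) ?_
    rw [h]
    exact RingOfIntegers.isIntegral_coe _
  let x' : 𝓞 K := ⟨x, hint⟩
  have hx' : x' ^ p = (ε : 𝓞 K) := by
    apply RingOfIntegers.ext
    rw [RingOfIntegers.coe_eq_algebraMap, map_pow]
    exact h
  have hu : IsUnit x' := by
    rw [← isUnit_pow_iff hp, hx']
    exact ε.isUnit
  obtain ⟨δ, hδ⟩ := hu
  exact ⟨δ, by rw [hδ]; rfl⟩

theorem coreLemmas_exists_frac (g : K) (hg : g ≠ 0) :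
    ∃ x y : 𝓞 K, x ≠ 0 ∧ y ≠ 0 ∧ g * (x : K) = (y : K) := by
  obtain ⟨y, x, hx, rfl⟩ := IsFractionRing.div_surjective (A := 𝓞 K) g
  have hx0 : x ≠ 0 := nonZeroDivisors.ne_zero hx
  have hxK : algebraMap (𝓞 K) K x ≠ 0 := by simpa using hx0
  refine ⟨x, y, hx0, ?_, ?_⟩
  · rintro rfl
    simp at hg
  · rw [RingOfIntegers.coe_eq_algebraMap, RingOfIntegers.coe_eq_algebraMap]
    field_simp

theorem coreLemmas_ideal_pow_inj {p : ℕ} (hp : p ≠ 0) (A B : Ideal (𝓞 K)) (h : A ^ p = B ^ p) :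
    A = B := by
  apply dvd_antisymm
  · exact (UniqueFactorizationMonoid.pow_dvd_pow_iff_dvd hp).mp (by rw [h])
  · exact (UniqueFactorizationMonoid.pow_dvd_pow_iff_dvd hp).mp (by rw [h])

/-- C1: the ideal `I` with `I ^ p = (α)` inherits the type of `α`. -/
theorem ideal_type {p : ℕ} (hp : p ≠ 0) {ζ : K} (α : 𝓞 K) (hα : α ≠ 0) (I : Ideal (𝓞 K))
    (hI : Ideal.span {α} = I ^ p) (htype : IsTypeSq p ζ (α : K)) :
    ∀ (σ : K ≃ₐ[ℚ] K) (t : ℕ), σ ζ = ζ ^ t → ∃ x y : 𝓞 K, x ≠ 0 ∧ y ≠ 0 ∧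
      Ideal.span {x} * I.map (sigO σ : 𝓞 K →+* 𝓞 K) = Ideal.span {y} * I ^ (t ^ 2) := by
  intro σ t hσ
  obtain ⟨g, hg⟩ := htype σ t hσ
  have hαK : (α : K) ≠ 0 := by simpa using hα
  have hg0 : g ≠ 0 := by
    rintro rfl
    rw [zero_pow hp, mul_zero] at hg
    exact hαK (by simpa using hg)
  obtain ⟨x, y, hx, hy, hxy⟩ := coreLemmas_exists_frac g hg0
  refine ⟨x, y, hx, hy, ?_⟩
  apply coreLemmas_ideal_pow_inj hp
  have h1 : x ^ p * sigO σ α = y ^ p * α ^ (t ^ 2) := by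
    apply RingOfIntegers.ext
    simp only [RingOfIntegers.coe_eq_algebraMap, map_mul, map_pow]
    simp only [← RingOfIntegers.coe_eq_algebraMap]
    have h2 : ((sigO σ α : 𝓞 K) : K) = σ (α : K) := rfl
    rw [h2, hg, ← hxy]
    ring
  rw [mul_pow, mul_pow, ← Ideal.map_pow, ← hI, ← pow_mul, mul_comm (t ^ 2) p, pow_mul, ← hI,
    Ideal.map_span, Set.image_singleton, Ideal.span_singleton_pow, Ideal.span_singleton_pow,
    Ideal.span_singleton_pow, Ideal.span_singleton_mul_span_singleton,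
    Ideal.span_singleton_mul_span_singleton]
  congr 2

/-- C3: if `α = ε γ ^ p` is of type `ω²`, so is the unit `ε`. -/
theorem unit_type {p : ℕ} (hp : p ≠ 0) {ζ : K} (α : 𝓞 K) (hα : α ≠ 0)
    (htype : IsTypeSq p ζ (α : K)) (ε : (𝓞 K)ˣ) (γ : 𝓞 K) (h : α = ε * γ ^ p) :
    IsUnitTypeSq p ζ ε := by
  intro σ t hσ
  obtain ⟨g, hg⟩ := htype σ t hσ
  have hγ : γ ≠ 0 := by
    rintro rfl
    rw [zero_pow hp, mul_zero] at h
    exact hα h
  have hγK : (γ : K) ≠ 0 := by simpa using hγ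
  have hσγ : σ (γ : K) ≠ 0 := by simpa using hγK
  have hαK : (α : K) = ((ε : 𝓞 K) : K) * (γ : K) ^ p := by
    rw [h]
    simp only [RingOfIntegers.coe_eq_algebraMap, map_mul, map_pow]
  have hεK : ((ε : 𝓞 K) : K) ≠ 0 := by
    have : (ε : 𝓞 K) ≠ 0 := ε.ne_zero
    simpa using this
  set ε' : (𝓞 K)ˣ := Units.map (sigO σ : 𝓞 K →* 𝓞 K) ε with hε'
  have hε'K : ((ε' : 𝓞 K) : K) = σ ((ε : 𝓞 K) : K) := rfl
  have hkey : ((γ : K) ^ (t ^ 2) * g / σ (γ : K)) ^ p =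
      (((ε' * (ε ^ (t ^ 2))⁻¹ : (𝓞 K)ˣ) : 𝓞 K) : K) := by
    have h1 : (((ε' * (ε ^ (t ^ 2))⁻¹ : (𝓞 K)ˣ) : 𝓞 K) : K) * ((ε : 𝓞 K) : K) ^ (t ^ 2) =
        σ ((ε : 𝓞 K) : K) := by
      rw [← hε'K]
      have : ((ε' * (ε ^ (t ^ 2))⁻¹ : (𝓞 K)ˣ) : 𝓞 K) * (ε : 𝓞 K) ^ (t ^ 2) = (ε' : 𝓞 K) := by
        rw [← Units.val_pow_eq_pow_val, ← Units.val_mul, inv_mul_cancel_right]
      rw [← this]
      simp only [RingOfIntegers.coe_eq_algebraMap, map_mul, map_pow]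
    rw [hαK, map_mul, map_pow] at hg
    have h2 : (((ε' * (ε ^ (t ^ 2))⁻¹ : (𝓞 K)ˣ) : 𝓞 K) : K) =
        σ ((ε : 𝓞 K) : K) / ((ε : 𝓞 K) : K) ^ (t ^ 2) := by
      rw [← h1]; field_simp
    rw [h2, div_pow, div_eq_div_iff (pow_ne_zero _ hσγ) (pow_ne_zero _ hεK), hg]
    ring
  obtain ⟨δ, hδ⟩ := exists_unit_of_pow_eq hp _ _ hkey
  refine ⟨δ, ?_⟩
  have h3 : δ ^ p = ε' * (ε ^ (t ^ 2))⁻¹ := by
    apply Units.ext
    apply RingOfIntegers.ext
    rw [← hkey, ← hδ, Units.val_pow_eq_pow_val, RingOfIntegers.coe_eq_algebraMap, map_pow]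
  rw [h3, mul_comm ε', mul_inv_cancel_left]

/-- A1: scaling into the ring of integers by a `p`-th power. -/
theorem exists_integral_scale (p : ℕ) (hp : p ≠ 0) (α : K) :
    ∃ (d α' : 𝓞 K), d ≠ 0 ∧ (α' : K) = α * (d : K) ^ p := by
  obtain ⟨a, d, hd, rfl⟩ := IsFractionRing.div_surjective (A := 𝓞 K) α
  have hd0 : d ≠ 0 := nonZeroDivisors.ne_zero hd
  have hdK : algebraMap (𝓞 K) K d ≠ 0 := by simpa using hd0
  obtain ⟨m, rfl⟩ : ∃ m, p = m + 1 := ⟨p - 1, by omega⟩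
  refine ⟨d, a * d ^ m, hd0, ?_⟩
  simp only [RingOfIntegers.coe_eq_algebraMap, map_mul, map_pow]
  field_simp
  ring

/-- A2: an integer all of whose valuations are `p`-th powers generates the `p`-th power of an
ideal. -/
theorem exists_ideal_pow {p : ℕ} (hp : p ≠ 0) (α : 𝓞 K) (hα : α ≠ 0)
    (h : ∀ v : HeightOneSpectrum (𝓞 K), ∃ y : K, v.valuation K (α : K) = v.valuation K y ^ p) :
    ∃ I : Ideal (𝓞 K), Ideal.span {α} = I ^ p := by
  classical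
  have hJ : Ideal.span {α} ≠ (⊥ : Ideal (𝓞 K)) := by
    simpa [Ideal.span_singleton_eq_bot] using hα
  have hcount : ∀ 𝔮 ∈ UniqueFactorizationMonoid.normalizedFactors (Ideal.span {α}),
      p ∣ (UniqueFactorizationMonoid.normalizedFactors (Ideal.span {α})).count 𝔮 := by
    intro 𝔮 h𝔮
    have hprime : Prime 𝔮 := UniqueFactorizationMonoid.prime_of_normalized_factor 𝔮 h𝔮
    have hne : 𝔮 ≠ ⊥ := hprime.ne_zero
    have hisp : 𝔮.IsPrime := Ideal.isPrime_of_prime hprime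
    let v : HeightOneSpectrum (𝓞 K) := ⟨𝔮, hisp, hne⟩
    obtain ⟨y, hy⟩ := h v
    rw [RingOfIntegers.coe_eq_algebraMap, HeightOneSpectrum.valuation_of_algebraMap,
      HeightOneSpectrum.intValuation_if_neg v hα,
      Ideal.count_associates_factors_eq hJ hisp hne] at hy
    have hy0 : v.valuation K y ≠ 0 := by
      intro h0
      rw [h0, zero_pow hp] at hy
      exact WithZero.coe_ne_zero hy
    obtain ⟨k, hk⟩ : ∃ k : ℤ, v.valuation K y = WithZero.exp k := by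
      refine ⟨WithZero.log (v.valuation K y), ?_⟩
      rw [WithZero.exp_log hy0]
    rw [hk, ← WithZero.exp_nsmul, WithZero.exp_inj] at hy
    have : (p : ℤ) ∣ ((UniqueFactorizationMonoid.normalizedFactors (Ideal.span {α})).count 𝔮 : ℤ) := by
      refine ⟨-k, ?_⟩
      simp only [nsmul_eq_mul] at hy
      linarith
    exact_mod_cast this
  obtain ⟨u, hu⟩ := Multiset.exists_smul_of_dvd_count _ hcount
  refine ⟨u.prod, ?_⟩
  rw [← Multiset.prod_nsmul, ← hu, Ideal.prod_normalizedFactors_eq_self hJ]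

end Fermat.Agent.S14
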