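import Fermat.Agent.S14.Defs

/-!
# S14, task T04: the cyclotomic element `η` modulo `λ³`
-/

set_option autoImplicit false
set_option linter.unusedSectionVars false

namespace Fermat.Agent.S14

open NumberField

namespace Eta

variable (p : ℕ) [hp : Fact p.Prime]

/-- `𝔽_p[ε₁, ε₂]/(ε₁², ε₂²)`. -/
abbrev D2 : Type := DualNumber (DualNumber (ZMod p))

variable {p}

def cA (x : D2 p) : ZMod p := x.fst.fst
def cB (x : D2 p) : ZMod p := x.fst.snd
def cC (x : D2 p) : ZMod p := x.snd.fst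
def cD (x : D2 p) : ZMod p := x.snd.snd

lemma d2_ext {x y : D2 p} (hA : cA x = cA y) (hB : cB x = cB y) (hC : cC x = cC y)
    (hD : cD x = cD y) : x = y :=
  TrivSqZeroExt.ext (TrivSqZeroExt.ext hA hB) (TrivSqZeroExt.ext hC hD)

@[simp] lemma cA_mul (x y : D2 p) : cA (x * y) = cA x * cA y := by simp [cA]
@[simp] lemma cB_mul (x y : D2 p) : cB (x * y) = cA x * cB y + cB x * cA y := by
  simp [cA, cB, mul_comm]
@[simp] lemma cC_mul (x y : D2 p) : cC (x * y) = cA x * cC y + cC x * cA y := by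
  simp [cA, cC, mul_comm]
@[simp] lemma cD_mul (x y : D2 p) :
    cD (x * y) = cA x * cD y + cB x * cC y + cC x * cB y + cD x * cA y := by
  simp [cA, cB, cC, cD]
  ring
@[simp] lemma cA_add (x y : D2 p) : cA (x + y) = cA x + cA y := by simp [cA]
@[simp] lemma cB_add (x y : D2 p) : cB (x + y) = cB x + cB y := by simp [cB]
@[simp] lemma cC_add (x y : D2 p) : cC (x + y) = cC x + cC y := by simp [cC]
@[simp] lemma cD_add (x y : D2 p) : cD (x + y) = cD x + cD y := by simp [cD]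
@[simp] lemma cA_one : cA (1 : D2 p) = 1 := by simp [cA]
@[simp] lemma cB_one : cB (1 : D2 p) = 0 := by simp [cB]
@[simp] lemma cC_one : cC (1 : D2 p) = 0 := by simp [cC]
@[simp] lemma cD_one : cD (1 : D2 p) = 0 := by simp [cD]
@[simp] lemma cA_zero : cA (0 : D2 p) = 0 := by simp [cA]
@[simp] lemma cB_zero : cB (0 : D2 p) = 0 := by simp [cB]
@[simp] lemma cC_zero : cC (0 : D2 p) = 0 := by simp [cC]
@[simp] lemma cD_zero : cD (0 : D2 p) = 0 := by simp [cD]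

/-- the mixed second logarithmic derivative. -/
def lam (x : D2 p) : ZMod p := (cA x * cD x - cB x * cC x) * ((cA x)⁻¹) ^ 2

lemma lam_mul {x y : D2 p} (hx : cA x ≠ 0) (hy : cA y ≠ 0) : lam (x * y) = lam x + lam y := by
  simp only [lam, cA_mul, cB_mul, cC_mul, cD_mul]
  field_simp
  ring

lemma lam_one : lam (1 : D2 p) = 0 := by simp [lam]

lemma cA_pow (x : D2 p) (n : ℕ) : cA (x ^ n) = cA x ^ n := by
  induction n with
  | zero => simp
  | succ n ih => rw [pow_succ, cA_mul, ih, pow_succ]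

lemma lam_pow {x : D2 p} (hx : cA x ≠ 0) (n : ℕ) : lam (x ^ n) = n * lam x := by
  induction n with
  | zero => simp [lam_one]
  | succ n ih =>
    rw [pow_succ, lam_mul (by rw [cA_pow]; exact pow_ne_zero _ hx) hx, ih]
    push_cast; ring

lemma cA_prod {ι : Type*} (s : Finset ι) (f : ι → D2 p) : cA (∏ i ∈ s, f i) = ∏ i ∈ s, cA (f i) := by
  classical
  induction s using Finset.induction_on with
  | empty => simp
  | insert a s ha ih => rw [Finset.prod_insert ha, Finset.prod_insert ha, cA_mul, ih]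

lemma lam_prod {ι : Type*} (s : Finset ι) (f : ι → D2 p) (hf : ∀ i ∈ s, cA (f i) ≠ 0) :
    lam (∏ i ∈ s, f i) = ∑ i ∈ s, lam (f i) := by
  classical
  induction s using Finset.induction_on with
  | empty => simp [lam_one]
  | insert a s ha ih =>
    rw [Finset.prod_insert ha, Finset.sum_insert ha, lam_mul (hf a (Finset.mem_insert_self a s)),
      ih (fun i hi => hf i (Finset.mem_insert_of_mem hi))]
    rw [cA_prod]
    exact Finset.prod_ne_zero_iff.mpr (fun i hi => hf i (Finset.mem_insert_of_mem hi))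

/-- the image of `ζ`: `1 + ε₁ + ε₂`. -/
def yE : D2 p := TrivSqZeroExt.inl (TrivSqZeroExt.inl 1 + TrivSqZeroExt.inr 1) + TrivSqZeroExt.inr 1

@[simp] lemma cA_yE : cA (yE : D2 p) = 1 := by simp [cA, yE]
@[simp] lemma cB_yE : cB (yE : D2 p) = 1 := by simp [cB, yE]
@[simp] lemma cC_yE : cC (yE : D2 p) = 1 := by simp [cC, yE]
@[simp] lemma cD_yE : cD (yE : D2 p) = 0 := by simp [cD, yE]

lemma yE_pow (i : ℕ) : cA ((yE : D2 p) ^ i) = 1 ∧ cB ((yE : D2 p) ^ i) = i ∧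
    cC ((yE : D2 p) ^ i) = i ∧ cD ((yE : D2 p) ^ i) = i * (i - 1) := by
  induction i with
  | zero => simp
  | succ i ih =>
    obtain ⟨h1, h2, h3, h4⟩ := ih
    rw [pow_succ]
    simp only [cA_mul, cB_mul, cC_mul, cD_mul, h1, h2, h3, h4, cA_yE, cB_yE, cC_yE, cD_yE]
    push_cast
    refine ⟨by ring, by ring, by ring, by ring⟩

/-- geometric sums of `yE`. -/
def gS (t : ℕ) : D2 p := ∑ i ∈ Finset.range t, (yE : D2 p) ^ i

lemma gS_coords (t : ℕ) : cA (gS t : D2 p) = t ∧ 2 * cB (gS t : D2 p) = t * (t - 1) ∧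
    2 * cC (gS t : D2 p) = t * (t - 1) ∧ 3 * cD (gS t : D2 p) = t * (t - 1) * (t - 2) := by
  induction t with
  | zero => simp [gS]
  | succ t ih =>
    obtain ⟨h1, h2, h3, h4⟩ := ih
    obtain ⟨e1, e2, e3, e4⟩ := yE_pow (p := p) t
    have hs : (gS (t + 1) : D2 p) = gS t + yE ^ t := by rw [gS, Finset.sum_range_succ]; rfl
    rw [hs]
    simp only [cA_add, cB_add, cC_add, cD_add, e1, e2, e3, e4, h1]
    push_cast
    refine ⟨rfl, by linear_combination h2, by linear_combination h3, by linear_combination h4⟩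

lemma two_ne_zero' (hp5 : 5 ≤ p) : (2 : ZMod p) ≠ 0 := by
  intro h
  have h2 : ((2 : ℕ) : ZMod p) = 0 := by exact_mod_cast h
  rw [ZMod.natCast_eq_zero_iff] at h2
  have := Nat.le_of_dvd (by norm_num) h2
  omega

lemma three_ne_zero' (hp5 : 5 ≤ p) : (3 : ZMod p) ≠ 0 := by
  intro h
  have h2 : ((3 : ℕ) : ZMod p) = 0 := by exact_mod_cast h
  rw [ZMod.natCast_eq_zero_iff] at h2
  have := Nat.le_of_dvd (by norm_num) h2
  omega

lemma twelve_lam_gS {t : ℕ} (ht : (t : ZMod p) ≠ 0) :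
    12 * lam (gS t : D2 p) = ((t : ZMod p) - 1) * (t - 5) := by
  obtain ⟨h1, h2, h3, h4⟩ := gS_coords (p := p) t
  have key : 12 * (cA (gS t : D2 p) * cD (gS t : D2 p) - cB (gS t : D2 p) * cC (gS t : D2 p))
      = (t : ZMod p) ^ 2 * (((t : ZMod p) - 1) * (t - 5)) := by
    rw [h1]
    linear_combination (4 * (t : ZMod p)) * h4 - (3 * (2 * cC (gS t : D2 p))) * h2
      - (3 * ((t : ZMod p) * (t - 1))) * h3
  rw [lam, ← mul_assoc, key, h1]
  field_simp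

lemma gS_p (hp5 : 5 ≤ p) : (gS p : D2 p) = 0 := by
  obtain ⟨h1, h2, h3, h4⟩ := gS_coords (p := p) p
  simp only [CharP.cast_eq_zero, zero_mul] at h1 h2 h3 h4
  refine d2_ext (by simpa using h1) ?_ ?_ ?_
  · simpa [two_ne_zero' hp5] using h2
  · simpa [two_ne_zero' hp5] using h3
  · simpa [three_ne_zero' hp5] using h4

lemma yE_sub_one_cube : ((yE : D2 p) - 1) ^ 3 = 0 := by
  have e : ∀ x : D2 p, cA x = 0 → cD (x) = 0 → x ^ 3 = 0 := by
    intro x hA hD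
    apply d2_ext <;> simp [pow_succ, hA, hD]
  apply e
  · simp [cA, yE]
  · simp [cD, yE]

open Polynomial

variable {K : Type*} [Field K] [NumberField K] [IsCyclotomicExtension {p} ℚ K]
variable {ζ : K} (hζ : IsPrimitiveRoot ζ p)

lemma aeval_yE_cyclotomic (hp5 : 5 ≤ p) : aeval (yE : D2 p) (cyclotomic p ℤ) = 0 := by
  rw [cyclotomic_prime ℤ p, map_sum]
  simp only [map_pow, aeval_X]
  exact gS_p hp5

include hζ in
lemma minpoly_gen : minpoly ℤ hζ.integralPowerBasis.gen = cyclotomic p ℤ := by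
  rw [hζ.integralPowerBasis_gen, ← RingOfIntegers.minpoly_coe, cyclotomic_eq_minpoly hζ hp.out.pos]
  rfl

/-- The ring homomorphism `ζ ↦ 1 + ε₁ + ε₂`. -/
noncomputable def psi (hp5 : 5 ≤ p) : 𝓞 K →ₐ[ℤ] D2 p :=
  hζ.integralPowerBasis.lift yE (by rw [minpoly_gen hζ]; exact aeval_yE_cyclotomic hp5)

lemma psi_zeta (hp5 : 5 ≤ p) : psi hζ hp5 hζ.toInteger = yE := by
  have := hζ.integralPowerBasis.lift_gen (yE : D2 p)
    (by rw [minpoly_gen hζ]; exact aeval_yE_cyclotomic hp5)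
  rw [← hζ.integralPowerBasis_gen]
  exact this

lemma psi_eq_zero_of_mem (hp5 : 5 ≤ p) {x : 𝓞 K}
    (hx : x ∈ (Ideal.span {hζ.toInteger - 1}) ^ 3) : psi hζ hp5 x = 0 := by
  rw [Ideal.span_singleton_pow, Ideal.mem_span_singleton] at hx
  obtain ⟨y, rfl⟩ := hx
  rw [map_mul, map_pow, map_sub, map_one, psi_zeta, yE_sub_one_cube, zero_mul]

lemma cA_psi_unit (hp5 : 5 ≤ p) (u : (𝓞 K)ˣ) : cA (psi hζ hp5 (u : 𝓞 K)) ≠ 0 := by
  intro h
  have h1 : psi hζ hp5 (u : 𝓞 K) * psi hζ hp5 ((u⁻¹ : (𝓞 K)ˣ) : 𝓞 K) = 1 := by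
    rw [← map_mul]; simp
  have h2 := congrArg cA h1
  rw [cA_mul, h, zero_mul, cA_one] at h2
  exact zero_ne_one h2

lemma lam_psi_int (hp5 : 5 ≤ p) (a : ℤ) : lam (psi hζ hp5 (a : 𝓞 K)) = 0 := by
  rw [map_intCast]
  have hB : cB ((a : D2 p)) = 0 := by simp [cB]
  have hD : cD ((a : D2 p)) = 0 := by simp [cD]
  simp [lam, hB, hD]

/-- `1 + ζ + ... + ζ^(t-1)` as a unit (`1` if `p ∣ t`). -/
noncomputable def gU (t : ℕ) : (𝓞 K)ˣ :=
  if h : t.Coprime p then (hζ.toInteger_isPrimitiveRoot.geom_sum_isUnit hp.out.two_le h).unit else 1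

lemma coe_gU {t : ℕ} (h : t.Coprime p) :
    ((gU hζ t : (𝓞 K)ˣ) : 𝓞 K) = ∑ i ∈ Finset.range t, hζ.toInteger ^ i := by
  rw [gU, dif_pos h]; rfl

lemma one_sub_mul_gU {t : ℕ} (h : t.Coprime p) :
    (1 - hζ.toInteger) * ((gU hζ t : (𝓞 K)ˣ) : 𝓞 K) = 1 - hζ.toInteger ^ t := by
  rw [coe_gU hζ h, mul_neg_geom_sum]

lemma one_sub_ne_zero : (1 - hζ.toInteger : 𝓞 K) ≠ 0 := by
  intro h
  have h1 : hζ.toInteger = 1 := (sub_eq_zero.mp h).symm
  have h2 := hζ.toInteger_isPrimitiveRoot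
  rw [h1] at h2
  have := h2.eq_orderOf
  rw [orderOf_one] at this
  exact hp.out.one_lt.ne' this

lemma gU_eq_of_pow_eq {s t : ℕ} (hs : s.Coprime p) (ht : t.Coprime p)
    (h : hζ.toInteger ^ s = hζ.toInteger ^ t) : gU hζ s = gU hζ t := by
  apply Units.ext
  apply mul_left_cancel₀ (one_sub_ne_zero hζ)
  rw [one_sub_mul_gU hζ hs, one_sub_mul_gU hζ ht, h]

lemma pow_eq_of_cast_eq {s t : ℕ} (h : (s : ZMod p) = (t : ZMod p)) :
    hζ.toInteger ^ s = hζ.toInteger ^ t := by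
  have h1 : s ≡ t [MOD p] := (ZMod.natCast_eq_natCast_iff s t p).mp h
  have hz := hζ.toInteger_isPrimitiveRoot.pow_eq_one
  rw [← Nat.div_add_mod s p, ← Nat.div_add_mod t p, pow_add, pow_add, pow_mul, pow_mul, hz,
    one_pow, one_pow, h1]

lemma coprime_of_cast_ne_zero {t : ℕ} (h : (t : ZMod p) ≠ 0) : t.Coprime p := by
  rw [Nat.coprime_comm, Nat.Prime.coprime_iff_not_dvd hp.out]
  intro hd
  exact h ((ZMod.natCast_eq_zero_iff t p).mpr hd)

lemma sigO_zeta {σ : K ≃ₐ[ℚ] K} {s : ℕ} (hσ : σ ζ = ζ ^ s) :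
    sigO σ hζ.toInteger = hζ.toInteger ^ s := by
  apply RingOfIntegers.ext
  have h1 : ((sigO σ hζ.toInteger : 𝓞 K) : K) = σ ζ := rfl
  rw [h1, hσ]
  rfl

/-- `σ_s(g_t) g_s = g_{st}`. -/
lemma sigO_gU {σ : K ≃ₐ[ℚ] K} {s t : ℕ} (hσ : σ ζ = ζ ^ s) (hs : s.Coprime p) (ht : t.Coprime p) :
    Units.map (sigO σ : 𝓞 K →* 𝓞 K) (gU hζ t) * gU hζ s = gU hζ (s * t) := by
  apply Units.ext
  apply mul_left_cancel₀ (one_sub_ne_zero hζ)
  rw [one_sub_mul_gU hζ (Nat.Coprime.mul_left hs ht)]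
  rw [Units.val_mul, mul_comm _ ((gU hζ s : (𝓞 K)ˣ) : 𝓞 K), ← mul_assoc, one_sub_mul_gU hζ hs]
  have h1 : ((Units.map (sigO σ : 𝓞 K →* 𝓞 K) (gU hζ t) : (𝓞 K)ˣ) : 𝓞 K)
      = sigO σ ((gU hζ t : (𝓞 K)ˣ) : 𝓞 K) := rfl
  have h2 := congrArg (sigO σ) (one_sub_mul_gU hζ ht)
  rw [map_mul, map_sub, map_sub, map_one, map_pow, sigO_zeta hζ hσ] at h2
  rw [h1, h2, pow_mul]

/-- the representative in `[1, p)` of a unit of `ZMod p`. -/
def vU (x : (ZMod p)ˣ) : ℕ := (x : ZMod p).val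

lemma cast_vU (x : (ZMod p)ˣ) : ((vU x : ℕ) : ZMod p) = x := ZMod.natCast_zmod_val _

lemma vU_coprime (x : (ZMod p)ˣ) : (vU x).Coprime p := ZMod.val_coe_unit_coprime x

lemma prod_Ico_eq {M : Type*} [CommMonoid M] (f : ℕ → M) :
    ∏ t ∈ Finset.Ico 1 p, f t = ∏ x : (ZMod p)ˣ, f (vU x) := by
  symm
  refine Finset.prod_bij' (fun x _ => vU x)
    (fun t ht => ZMod.unitOfCoprime t (by
      rw [Finset.mem_Ico] at ht
      exact (Nat.coprime_of_lt_prime (by omega) ht.2 hp.out).symm)) ?_ ?_ ?_ ?_ ?_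
  · intro x _
    rw [Finset.mem_Ico]
    refine ⟨?_, ZMod.val_lt _⟩
    rw [Nat.one_le_iff_ne_zero]
    intro h
    exact x.ne_zero ((ZMod.val_eq_zero _).mp h)
  · intro t _
    exact Finset.mem_univ _
  · intro x _
    apply Units.ext
    rw [ZMod.coe_unitOfCoprime, cast_vU]
  · intro t ht
    rw [Finset.mem_Ico] at ht
    rw [vU, ZMod.coe_unitOfCoprime, ZMod.val_natCast, Nat.mod_eq_of_lt ht.2]
  · intro x _
    rfl

/-- the exponent attached to a unit. -/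
def eU (x : (ZMod p)ˣ) : ℕ := invSq p (vU x)

lemma cast_eU (x : (ZMod p)ˣ) : ((eU x : ℕ) : ZMod p) = ((x : ZMod p)⁻¹) ^ 2 := by
  rw [eU, invSq, ZMod.natCast_zmod_val, cast_vU]

lemma eU_lt (x : (ZMod p)ˣ) : eU x < p := ZMod.val_lt _

lemma sum_units_inv_pow (hp5 : 5 ≤ p) {i : ℕ} (hi0 : 0 < i) (hi : i ≤ 2) :
    ∑ x : (ZMod p)ˣ, ((x : ZMod p)⁻¹) ^ i = 0 := by
  have h1 : ∑ x : (ZMod p)ˣ, ((x : ZMod p)⁻¹) ^ i = ∑ x : (ZMod p)ˣ, ((x : ZMod p)) ^ i := by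
    rw [← Equiv.sum_comp (Equiv.inv (ZMod p)ˣ)]
    apply Finset.sum_congr rfl
    intro x _
    rw [Equiv.inv_apply, Units.val_inv_eq_inv_val, inv_inv]
  rw [h1, FiniteField.sum_pow_units, ZMod.card, if_neg]
  intro hd
  have := Nat.le_of_dvd hi0 hd
  omega

lemma exists_sum_eU (hp5 : 5 ≤ p) : ∃ m : ℕ, ∑ x : (ZMod p)ˣ, eU x = p * m := by
  have h : ((∑ x : (ZMod p)ˣ, eU x : ℕ) : ZMod p) = 0 := by
    push_cast
    simp only [cast_eU]
    exact sum_units_inv_pow hp5 (by norm_num) le_rfl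
  exact (ZMod.natCast_eq_zero_iff _ _).mp h

/-- the cyclotomic unit `u = ∏ g_t^(t⁻²)`. -/
noncomputable def uE : (𝓞 K)ˣ := ∏ x : (ZMod p)ˣ, gU hζ (vU x) ^ eU x

lemma etaElt_eq {m : ℕ} (hm : ∑ x : (ZMod p)ˣ, eU x = p * m) :
    etaElt p hζ.toInteger = (1 - hζ.toInteger) ^ (p * m) * (uE hζ : (𝓞 K)ˣ) := by
  rw [etaElt, prod_Ico_eq, ← hm, ← Finset.prod_pow_eq_pow_sum, uE, Units.coe_prod,
    ← Finset.prod_mul_distrib]
  apply Finset.prod_congr rfl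
  intro x _
  rw [← one_sub_mul_gU hζ (vU_coprime x), mul_pow, Units.val_pow_eq_pow_val]
  rfl

lemma gU_mul_vU {s : ℕ} (hs : s.Coprime p) (x : (ZMod p)ˣ) :
    gU hζ (s * vU x) = gU hζ (vU (ZMod.unitOfCoprime s hs * x)) := by
  apply gU_eq_of_pow_eq hζ (Nat.Coprime.mul_left hs (vU_coprime x)) (vU_coprime _)
  apply pow_eq_of_cast_eq hζ
  rw [cast_vU, Units.val_mul, ZMod.coe_unitOfCoprime]
  push_cast
  rw [cast_vU]

lemma eU_rel {s : ℕ} (hs : s.Coprime p) (x : (ZMod p)ˣ) :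
    s ^ 2 * eU (ZMod.unitOfCoprime s hs * x)
      = eU x + p * (s ^ 2 * eU (ZMod.unitOfCoprime s hs * x) / p) := by
  have h1 : eU x = (s ^ 2 * eU (ZMod.unitOfCoprime s hs * x)) % p := by
    rw [← ZMod.val_natCast]
    have h2 : ((s ^ 2 * eU (ZMod.unitOfCoprime s hs * x) : ℕ) : ZMod p) = ((x : ZMod p)⁻¹) ^ 2 := by
      push_cast
      rw [cast_eU, Units.val_mul, ZMod.coe_unitOfCoprime]
      have hs0 : (s : ZMod p) ≠ 0 := by
        have := (ZMod.unitOfCoprime s hs).ne_zero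
        rwa [ZMod.coe_unitOfCoprime] at this
      have hx0 : (x : ZMod p) ≠ 0 := x.ne_zero
      field_simp
    rw [h2, eU, invSq, cast_vU]
  rw [h1]
  exact (Nat.mod_add_div _ _).symm

include hζ in
lemma coprime_of_sigma {σ : K ≃ₐ[ℚ] K} {s : ℕ} (hσ : σ ζ = ζ ^ s) : s.Coprime p := by
  have h1 : IsPrimitiveRoot (σ ζ) p := hζ.map_of_injective σ.injective
  rw [hσ] at h1
  exact (hζ.pow_iff_coprime hp.out.pos s).mp h1

lemma uE_type (hp5 : 5 ≤ p) : IsUnitTypeSq p ζ (uE hζ) := by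
  intro σ s hσ
  have hs := coprime_of_sigma hζ hσ
  obtain ⟨m, hm⟩ := exists_sum_eU (p := p) hp5
  set sU := ZMod.unitOfCoprime s hs with hsU
  set k : (ZMod p)ˣ → ℕ := fun x => s ^ 2 * eU (sU * x) / p with hk
  refine ⟨(∏ x : (ZMod p)ˣ, gU hζ (vU (sU * x)) ^ k x)⁻¹ * (gU hζ s ^ m)⁻¹, ?_⟩
  have h1 : ∀ x : (ZMod p)ˣ, Units.map (sigO σ : 𝓞 K →* 𝓞 K) (gU hζ (vU x))
      = gU hζ (vU (sU * x)) * (gU hζ s)⁻¹ := by
    intro x
    rw [eq_mul_inv_iff_mul_eq, sigO_gU hζ hσ hs (vU_coprime x), gU_mul_vU hζ hs x]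
  have h2 : Units.map (sigO σ : 𝓞 K →* 𝓞 K) (uE hζ)
      = (∏ x : (ZMod p)ˣ, gU hζ (vU (sU * x)) ^ eU x) * ((gU hζ s) ^ (p * m))⁻¹ := by
    rw [uE, map_prod, ← hm, ← Finset.prod_pow_eq_pow_sum, ← Finset.prod_inv_distrib,
      ← Finset.prod_mul_distrib]
    apply Finset.prod_congr rfl
    intro x _
    rw [map_pow, h1, mul_pow, inv_pow]
  have h3 : uE hζ ^ (s ^ 2) = (∏ x : (ZMod p)ˣ, gU hζ (vU (sU * x)) ^ eU x)
      * (∏ x : (ZMod p)ˣ, gU hζ (vU (sU * x)) ^ k x) ^ p := by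
    rw [uE, ← Equiv.prod_comp (Equiv.mulLeft sU), ← Finset.prod_pow, ← Finset.prod_pow,
      ← Finset.prod_mul_distrib]
    apply Finset.prod_congr rfl
    intro x _
    rw [Equiv.coe_mulLeft, ← pow_mul, ← pow_mul, ← pow_add, mul_comm (eU (sU * x)) (s ^ 2),
      eU_rel hs x, mul_comm (k x) p]
  rw [h2, h3, mul_pow, inv_pow, inv_pow, ← pow_mul, mul_comm m p]
  group

lemma psi_gU (hp5 : 5 ≤ p) {t : ℕ} (ht : t.Coprime p) :
    psi hζ hp5 ((gU hζ t : (𝓞 K)ˣ) : 𝓞 K) = gS t := by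
  rw [coe_gU hζ ht, map_sum, gS]
  simp only [map_pow, psi_zeta]

lemma psi_uE (hp5 : 5 ≤ p) :
    psi hζ hp5 ((uE hζ : (𝓞 K)ˣ) : 𝓞 K) = ∏ x : (ZMod p)ˣ, (gS (vU x) : D2 p) ^ eU x := by
  rw [uE, Units.coe_prod, map_prod]
  apply Finset.prod_congr rfl
  intro x _
  rw [Units.val_pow_eq_pow_val, map_pow, psi_gU hζ hp5 (vU_coprime x)]

lemma cA_gS_vU (x : (ZMod p)ˣ) : cA (gS (vU x) : D2 p) ≠ 0 := by
  rw [(gS_coords (p := p) (vU x)).1, cast_vU]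
  exact x.ne_zero

lemma twelve_lam_uE (hp5 : 5 ≤ p) : 12 * lam (psi hζ hp5 ((uE hζ : (𝓞 K)ˣ) : 𝓞 K)) = -1 := by
  rw [psi_uE, lam_prod _ _ (fun x _ => by rw [cA_pow]; exact pow_ne_zero _ (cA_gS_vU x)),
    Finset.mul_sum]
  have h1 : ∀ x : (ZMod p)ˣ, 12 * lam ((gS (vU x) : D2 p) ^ eU x)
      = 1 - 6 * ((x : ZMod p)⁻¹) ^ 1 + 5 * ((x : ZMod p)⁻¹) ^ 2 := by
    intro x
    have hx0 : (x : ZMod p) ≠ 0 := x.ne_zero
    have h2 := twelve_lam_gS (p := p) (t := vU x) (by rw [cast_vU]; exact hx0)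
    rw [cast_vU] at h2
    rw [lam_pow (cA_gS_vU x), cast_eU, mul_left_comm, h2]
    field_simp
    ring
  rw [Finset.sum_congr rfl (fun x _ => h1 x), Finset.sum_add_distrib, Finset.sum_sub_distrib,
    ← Finset.mul_sum, ← Finset.mul_sum, sum_units_inv_pow hp5 (by norm_num) (by norm_num),
    sum_units_inv_pow hp5 (by norm_num) le_rfl]
  simp only [Finset.sum_const, Finset.card_univ, ZMod.card_units, nsmul_eq_mul, mul_one, mul_zero,
    sub_zero, add_zero]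
  rw [Nat.cast_sub hp.out.one_le]
  simp

end Eta

open Eta in
/-- `η = (1-ζ)^(pm) u` with `u` a unit of type `ω²`, `u ≡ c (1 - π²/24) mod λ³`; hence
`u^j δ^p ≡ integer mod λ³` forces `p ∣ j`. -/
theorem exists_etaUnit {K : Type*} [Field K] [NumberField K]
    {p : ℕ} [Fact p.Prime] [IsCyclotomicExtension {p} ℚ K] {ζ : K}
    (hζ : IsPrimitiveRoot ζ p) (hp5 : 5 ≤ p) :
    ∃ (u : (𝓞 K)ˣ) (m : ℕ), etaElt p hζ.toInteger = (1 - hζ.toInteger) ^ (p * m) * u ∧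
      IsUnitTypeSq p ζ u ∧
      ∀ (j : ℕ) (δ : (𝓞 K)ˣ) (a : ℤ),
        (((u ^ j * δ ^ p : (𝓞 K)ˣ) : 𝓞 K) - (a : 𝓞 K)) ∈ (Ideal.span {hζ.toInteger - 1}) ^ 3 →
        p ∣ j := by
  obtain ⟨m, hm⟩ := exists_sum_eU (p := p) hp5
  refine ⟨uE hζ, m, etaElt_eq hζ hm, uE_type hζ hp5, ?_⟩
  intro j δ a hmem
  have h1 := psi_eq_zero_of_mem hζ hp5 hmem
  rw [map_sub, sub_eq_zero, Units.val_mul, Units.val_pow_eq_pow_val, Units.val_pow_eq_pow_val,
    map_mul, map_pow, map_pow] at h1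
  have h2 := congrArg lam h1
  rw [lam_psi_int, lam_mul (by rw [cA_pow]; exact pow_ne_zero _ (cA_psi_unit hζ hp5 _))
    (by rw [cA_pow]; exact pow_ne_zero _ (cA_psi_unit hζ hp5 _)),
    lam_pow (cA_psi_unit hζ hp5 _), lam_pow (cA_psi_unit hζ hp5 _),
    CharP.cast_eq_zero (ZMod p) p, zero_mul, add_zero] at h2
  have h3 := twelve_lam_uE hζ hp5
  have h4 : (j : ZMod p) = 0 := by
    have : (j : ZMod p) * (12 * lam (psi hζ hp5 ((uE hζ : (𝓞 K)ˣ) : 𝓞 K))) = 0 := by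
      rw [mul_left_comm, h2, mul_zero]
    rw [h3] at this
    simpa using this
  exact (ZMod.natCast_eq_zero_iff _ _).mp h4

end Fermat.Agent.S14
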