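import Fermat.Agent.S14.Defs
import Fermat.Agent.Kummer.ModP

/-!
# S14, task A3: the local condition at `λ = (ζ - 1)`
-/

set_option autoImplicit false

namespace Fermat.Agent.S14

open NumberField IsDedekindDomain

variable {K : Type*} [Field K] [NumberField K]

/-- A3: the local condition. -/
theorem local_condition {p : ℕ} [Fact p.Prime] [IsCyclotomicExtension {p} ℚ K] {ζ : K}
    (hζ : IsPrimitiveRoot ζ p) (hp5 : 5 ≤ p) (α : 𝓞 K) (hα : α ≠ 0)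
    (h : ∀ v : HeightOneSpectrum (𝓞 K), (p : 𝓞 K) ∈ v.asIdeal → ∃ y : K, y ≠ 0 ∧
        v.valuation K ((α : K) / y ^ p - 1) ≤ WithZero.exp (-(3 : ℤ)))
    (ε : (𝓞 K)ˣ) (γ : 𝓞 K) (hε : α = ε * γ ^ p) :
    ∃ a : ℤ, (((ε⁻¹ : (𝓞 K)ˣ) : 𝓞 K) - (a : 𝓞 K)) ∈ (Ideal.span {hζ.toInteger - 1}) ^ 3 := by
  classical
  have hp : p.Prime := Fact.out
  set π : 𝓞 K := hζ.toInteger - 1 with hπdef
  have hπ : Prime π := hζ.zeta_sub_one_prime'
  let v : HeightOneSpectrum (𝓞 K) :=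
    ⟨Ideal.span {π}, (Ideal.span_singleton_prime hπ.ne_zero).2 hπ, by simpa using hπ.ne_zero⟩
  have hvI : v.asIdeal = Ideal.span {π} := rfl
  have hass := IsCyclotomicExtension.Rat.associated_zeta_sub_one_pow_prime p hζ
  have hπ3 : π ^ 3 ∣ (p : 𝓞 K) := (pow_dvd_pow π (by omega : 3 ≤ p - 1)).trans hass.dvd
  have hpmem : (p : 𝓞 K) ∈ v.asIdeal :=
    Ideal.mem_span_singleton.2 ((dvd_pow_self π (by norm_num)).trans hπ3)
  obtain ⟨y, hy0, hy⟩ := h v hpmem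
  set w : K := (γ : K) / y with hw
  have hαw : (α : K) / y ^ p = ((ε : 𝓞 K) : K) * w ^ p := by
    rw [hε, hw, div_pow]
    push_cast
    ring
  rw [hαw] at hy
  have hlt : v.valuation K (((ε : 𝓞 K) : K) * w ^ p - 1) < 1 :=
    lt_of_le_of_lt hy (by
      rw [← WithZero.exp_zero]
      exact WithZero.exp_lt_exp.2 (by norm_num))
  have h1 : v.valuation K (((ε : 𝓞 K) : K) * w ^ p) = 1 := by
    have := Valuation.map_add_eq_of_lt_right (v.valuation K)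
      (x := ((ε : 𝓞 K) : K) * w ^ p - 1) (y := 1) (by simpa using hlt)
    simpa using this
  have hεv : v.valuation K ((ε : 𝓞 K) : K) = 1 := by
    have : v.valuation K (algebraMap (𝓞 K) K (ε : 𝓞 K)) = 1 := by
      rw [HeightOneSpectrum.valuation_eq_one_iff_notMem]
      intro hmem
      exact v.isPrime.ne_top (Ideal.eq_top_of_isUnit_mem _ hmem ε.isUnit)
    exact this
  have hwv : v.valuation K w = 1 := by
    rw [map_mul, hεv, one_mul, map_pow] at h1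
    exact (pow_eq_one_iff.1 h1).resolve_right hp.ne_zero
  obtain ⟨a, b, hab⟩ := v.exists_primeCompl_mul_eq_of_integer w hwv.le
  have hbmem : (b : 𝓞 K) ∉ v.asIdeal := b.2
  have hbv : v.valuation K (algebraMap (𝓞 K) K (b : 𝓞 K)) = 1 :=
    (HeightOneSpectrum.valuation_eq_one_iff_notMem v).2 hbmem
  -- the key congruence
  have hkey : (ε : 𝓞 K) * a ^ p - (b : 𝓞 K) ^ p ∈ (Ideal.span {π}) ^ 3 := by
    rw [← hvI, ← HeightOneSpectrum.intValuation_le_pow_iff_mem,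
      ← HeightOneSpectrum.valuation_of_algebraMap (K := K)]
    have e : algebraMap (𝓞 K) K ((ε : 𝓞 K) * a ^ p - (b : 𝓞 K) ^ p)
        = (((ε : 𝓞 K) : K) * w ^ p - 1) * (algebraMap (𝓞 K) K (b : 𝓞 K)) ^ p := by
      rw [map_sub, map_mul, map_pow, map_pow, ← hab, mul_pow]
      ring
    change v.valuation K (algebraMap (𝓞 K) K ((ε : 𝓞 K) * a ^ p - (b : 𝓞 K) ^ p)) ≤ _
    rw [e, map_mul, map_pow, hbv, one_pow, mul_one]
    exact_mod_cast hy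
  obtain ⟨na, hna⟩ := Fermat.Agent.Kummer.exists_int_pow_sub_dvd hζ a
  obtain ⟨nb, hnb⟩ := Fermat.Agent.Kummer.exists_int_pow_sub_dvd hζ (b : 𝓞 K)
  have hI : ∀ x : 𝓞 K, (p : 𝓞 K) ∣ x → x ∈ (Ideal.span {π}) ^ 3 := by
    intro x hx
    rw [Ideal.span_singleton_pow, Ideal.mem_span_singleton]
    exact hπ3.trans hx
  have h2 : (ε : 𝓞 K) * (na : 𝓞 K) - (nb : 𝓞 K) ∈ (Ideal.span {π}) ^ 3 := by
    have e : (ε : 𝓞 K) * (na : 𝓞 K) - (nb : 𝓞 K)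
        = ((ε : 𝓞 K) * a ^ p - (b : 𝓞 K) ^ p) - (ε : 𝓞 K) * (a ^ p - na)
          + ((b : 𝓞 K) ^ p - nb) := by ring
    rw [e]
    exact Ideal.add_mem _ (Ideal.sub_mem _ hkey (Ideal.mul_mem_left _ _ (hI _ hna))) (hI _ hnb)
  have hnbp : ¬ (p : ℤ) ∣ nb := by
    intro hdvd
    apply hbmem
    have h3 : π ∣ (nb : 𝓞 K) :=
      (IsCyclotomicExtension.Rat.zeta_sub_one_dvd_intCast_iff' p hζ).2 hdvd
    have h4 : π ∣ (b : 𝓞 K) ^ p - nb := ((dvd_pow_self π (by norm_num)).trans hπ3).trans hnb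
    have h5 : π ∣ (b : 𝓞 K) ^ p := by
      have := dvd_add h4 h3
      simpa using this
    exact Ideal.mem_span_singleton.2 (hπ.dvd_of_dvd_pow h5)
  have hcop : IsCoprime nb (p : ℤ) :=
    ((Nat.prime_iff_prime_int.1 hp).coprime_iff_not_dvd.2 hnbp).symm
  obtain ⟨c, d, hcd⟩ := hcop
  refine ⟨na * c, ?_⟩
  have hcd' : (c : 𝓞 K) * (nb : 𝓞 K) + (d : 𝓞 K) * (p : 𝓞 K) = 1 := by
    exact_mod_cast congrArg (fun z : ℤ => (z : 𝓞 K)) hcd
  have e : ((ε⁻¹ : (𝓞 K)ˣ) : 𝓞 K) - ((na * c : ℤ) : 𝓞 K)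
      = ((ε⁻¹ : (𝓞 K)ˣ) : 𝓞 K) * ((d : 𝓞 K) * (p : 𝓞 K)
        - ((ε : 𝓞 K) * (na : 𝓞 K) - (nb : 𝓞 K)) * c) := by
    have hinv : ((ε⁻¹ : (𝓞 K)ˣ) : 𝓞 K) * (ε : 𝓞 K) = 1 := by simp
    push_cast
    linear_combination (((ε⁻¹ : (𝓞 K)ˣ) : 𝓞 K)) * (-hcd') + ((na : 𝓞 K) * c) * hinv
  rw [e]
  exact Ideal.mul_mem_left _ _ (Ideal.sub_mem _ (hI _ (Dvd.intro_left _ rfl))
    (Ideal.mul_mem_right _ _ h2))

end Fermat.Agent.S14
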