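import Fermat.Agent.S14.Defs

/-!
# S14, task T11: the core statement for `p = 3`
-/

set_option autoImplicit false

namespace Fermat.Agent.S14

open NumberField

namespace PThree

set_option linter.unusedSectionVars false

variable {K : Type*} [Field K] [NumberField K] [IsCyclotomicExtension {3} ℚ K]

theorem zeta_ne_one {ζ : K} (hζ : IsPrimitiveRoot ζ 3) : ζ ≠ 1 :=
  hζ.ne_one (by norm_num)

theorem zeta_ne_neg_one {ζ : K} (hζ : IsPrimitiveRoot ζ 3) : ζ ≠ -1 := by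
  intro h
  have h3 : ζ ^ 3 = 1 := hζ.pow_eq_one
  rw [h] at h3
  norm_num at h3

/-- the cube of a unit is `±1`. -/
theorem unit_cube {ζ : K} (hζ : IsPrimitiveRoot ζ 3) (u : (𝓞 K)ˣ) : u ^ 3 = 1 ∨ u ^ 3 = -1 := by
  have h := IsCyclotomicExtension.Rat.Three.Units.mem hζ u
  set η := (IsPrimitiveRoot.isUnit (hζ.toInteger_isPrimitiveRoot) (by decide)).unit with hη
  have hη3 : η ^ 3 = 1 := by
    apply Units.ext
    rw [Units.val_pow_eq_pow_val, Units.val_one]
    exact hζ.toInteger_cube_eq_one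
  simp only [List.mem_cons, List.not_mem_nil, or_false] at h
  rcases h with rfl | rfl | rfl | rfl | rfl | rfl
  · left; simp
  · right; simp [Odd.neg_pow (by decide : Odd 3)]
  · left; exact hη3
  · right; rw [Odd.neg_pow (by decide : Odd 3), hη3]
  · left; rw [← pow_mul, mul_comm, pow_mul, hη3, one_pow]
  · right; rw [Odd.neg_pow (by decide : Odd 3), ← pow_mul, mul_comm, pow_mul, hη3, one_pow]

/-- `ζ₃` is not a cube in `K`. -/
theorem zeta_not_cube {ζ : K} (hζ : IsPrimitiveRoot ζ 3) (x : K) : x ^ 3 ≠ ζ := by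
  intro hx
  have h9 : x ^ 9 = 1 := by
    have : x ^ 9 = (x ^ 3) ^ 3 := by ring
    rw [this, hx, hζ.pow_eq_one]
  have hint : IsIntegral ℤ x := by
    refine IsIntegral.of_pow (n := 9) (by norm_num) ?_
    rw [h9]; exact isIntegral_one
  let x' : 𝓞 K := ⟨x, hint⟩
  have hx'9 : x' ^ 9 = 1 := by
    apply RingOfIntegers.ext
    rw [RingOfIntegers.coe_eq_algebraMap, RingOfIntegers.coe_eq_algebraMap, map_pow, map_one]
    exact h9
  have hu : IsUnit x' := IsUnit.of_pow_eq_one hx'9 (by norm_num)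
  obtain ⟨u, hu'⟩ := hu
  rcases unit_cube hζ u with h | h
  · apply zeta_ne_one hζ
    have := congrArg (fun v : (𝓞 K)ˣ => ((v : 𝓞 K) : K)) h
    simp only [Units.val_pow_eq_pow_val, hu', Units.val_one, map_pow, map_one] at this
    rw [← hx]; exact this
  · apply zeta_ne_neg_one hζ
    have := congrArg (fun v : (𝓞 K)ˣ => ((v : 𝓞 K) : K)) h
    simp only [Units.val_pow_eq_pow_val, hu', Units.val_neg, Units.val_one, map_pow, map_neg,
      map_one] at this
    rw [← hx]; exact this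

/-- there is an automorphism with `σ ζ = ζ ^ 2`. -/
theorem exists_conj {ζ : K} (hζ : IsPrimitiveRoot ζ 3) : ∃ σ : K ≃ₐ[ℚ] K, σ ζ = ζ ^ 2 := by
  have hcop : Nat.Coprime 2 3 := by norm_num
  refine ⟨(IsCyclotomicExtension.Rat.galEquivZMod 3 K).symm (ZMod.unitOfCoprime 2 hcop), ?_⟩
  rw [IsCyclotomicExtension.Rat.galEquivZMod_apply_of_pow_eq 3 K _ hζ.pow_eq_one]
  simp only [MulEquiv.apply_symm_apply, ZMod.coe_unitOfCoprime]
  rfl

end PThree

open PThree in
/-- the core statement for `p = 3` (no local hypothesis needed). -/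
theorem core_three {K : Type*} [Field K] [NumberField K] [IsCyclotomicExtension {3} ℚ K] {ζ : K}
    (hζ : IsPrimitiveRoot ζ 3) (α : 𝓞 K) (hα : α ≠ 0) (I : Ideal (𝓞 K))
    (hI : Ideal.span {α} = I ^ 3) (hT : IsTypeSq 3 ζ (α : K)) : ∃ γ : 𝓞 K, α = γ ^ 3 := by
  have : IsPrincipalIdealRing (𝓞 K) := IsCyclotomicExtension.Rat.three_pid K
  obtain ⟨c, hc⟩ : ∃ c, I = Ideal.span {c} := ⟨_, (Ideal.span_singleton_generator I).symm⟩
  rw [hc, Ideal.span_singleton_pow, Ideal.span_singleton_eq_span_singleton] at hI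
  obtain ⟨ε, hε⟩ := hI.symm
  -- `c ^ 3 * ε = α`
  have hc0 : c ≠ 0 := by
    rintro rfl
    apply hα
    rw [← hε]; simp
  have hcK : (c : K) ≠ 0 := by
    simpa using hc0
  obtain ⟨σ, hσ⟩ := exists_conj hζ
  obtain ⟨γ, hγ⟩ := hT σ 2 hσ
  have hαK : (α : K) = (c : K) ^ 3 * ((ε : 𝓞 K) : K) := by
    rw [← hε]; simp
  have hσc : σ (c : K) ≠ 0 := by simpa using hcK
  -- `σ e = e ^ 4 * δ ^ 3`
  have hkey : σ ((ε : 𝓞 K) : K) = ((ε : 𝓞 K) : K) ^ 4 * ((c : K) ^ 4 * γ / σ (c : K)) ^ 3 := by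
    rw [hαK, map_mul, map_pow] at hγ
    field_simp
    linear_combination hγ
  have h3 : ζ ^ 3 = 1 := hζ.pow_eq_one
  have hζ0 : ζ ≠ 0 := hζ.ne_zero (by norm_num)
  set δ : K := (c : K) ^ 4 * γ / σ (c : K) with hδ
  have h := IsCyclotomicExtension.Rat.Three.Units.mem hζ ε
  simp only [List.mem_cons, List.not_mem_nil, or_false] at h
  have hηK : (((IsPrimitiveRoot.isUnit (hζ.toInteger_isPrimitiveRoot) (by decide)).unit :
      (𝓞 K)ˣ) : 𝓞 K) = hζ.toInteger := rfl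
  have hz : ((hζ.toInteger : 𝓞 K) : K) = ζ := hζ.coe_toInteger
  rcases h with rfl | rfl | rfl | rfl | rfl | rfl
  · exact ⟨c, by rw [← hε]; simp⟩
  · exact ⟨-c, by rw [← hε, Odd.neg_pow (by decide : Odd 3)]; simp⟩
  · exfalso
    rw [hηK, hz, hσ] at hkey
    refine zeta_not_cube hζ δ ?_
    have : ζ * (δ ^ 3 - ζ) = 0 := by
      linear_combination (-1 : K) * hkey + (-ζ * δ ^ 3) * h3
    rcases mul_eq_zero.mp this with h | h
    · exact absurd h hζ0
    · linear_combination h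
  · exfalso
    have he : (((-(IsPrimitiveRoot.isUnit (hζ.toInteger_isPrimitiveRoot) (by decide)).unit :
        (𝓞 K)ˣ) : 𝓞 K) : K) = -ζ := by
      rw [Units.val_neg, hηK, RingOfIntegers.coe_eq_algebraMap, map_neg,
        ← RingOfIntegers.coe_eq_algebraMap, hz]
    rw [he, map_neg, hσ] at hkey
    refine zeta_not_cube hζ (-δ) ?_
    have : ζ * ((-δ) ^ 3 - ζ) = 0 := by
      linear_combination hkey + (ζ * δ ^ 3) * h3
    rcases mul_eq_zero.mp this with h | h
    · exact absurd h hζ0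
    · linear_combination h
  · exfalso
    have he : ((((IsPrimitiveRoot.isUnit (hζ.toInteger_isPrimitiveRoot) (by decide)).unit ^ 2 :
        (𝓞 K)ˣ) : 𝓞 K) : K) = ζ ^ 2 := by
      rw [Units.val_pow_eq_pow_val, hηK, RingOfIntegers.coe_eq_algebraMap, map_pow,
        ← RingOfIntegers.coe_eq_algebraMap, hz]
    rw [he, map_pow, hσ] at hkey
    refine zeta_not_cube hζ (δ ^ 2) ?_
    -- `ζ ^ 4 = ζ ^ 8 * δ ^ 3`, so `δ ^ 3 = ζ ^ 2`
    have h1 : δ ^ 3 = ζ ^ 2 := by
      have : ζ ^ 2 * (δ ^ 3 - ζ ^ 2) = 0 := by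
        linear_combination (-1 : K) * hkey + (-(ζ ^ 5 + ζ ^ 2) * δ ^ 3) * h3
      rcases mul_eq_zero.mp this with h | h
      · exact absurd h (pow_ne_zero 2 hζ0)
      · linear_combination h
    calc (δ ^ 2) ^ 3 = (δ ^ 3) ^ 2 := by ring
      _ = ζ ^ 3 * ζ := by rw [h1]; ring
      _ = ζ := by rw [h3, one_mul]
  · exfalso
    have he : (((-(IsPrimitiveRoot.isUnit (hζ.toInteger_isPrimitiveRoot) (by decide)).unit ^ 2 :
        (𝓞 K)ˣ) : 𝓞 K) : K) = -ζ ^ 2 := by
      rw [Units.val_neg, Units.val_pow_eq_pow_val, hηK, RingOfIntegers.coe_eq_algebraMap, map_neg,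
        map_pow, ← RingOfIntegers.coe_eq_algebraMap, hz]
    rw [he, map_neg, map_pow, hσ] at hkey
    refine zeta_not_cube hζ (δ ^ 2) ?_
    have h1 : δ ^ 3 = -ζ ^ 2 := by
      have : ζ ^ 2 * (δ ^ 3 + ζ ^ 2) = 0 := by
        linear_combination (-1 : K) * hkey + (-(ζ ^ 5 + ζ ^ 2) * δ ^ 3) * h3
      rcases mul_eq_zero.mp this with h | h
      · exact absurd h (pow_ne_zero 2 hζ0)
      · linear_combination h
    calc (δ ^ 2) ^ 3 = (δ ^ 3) ^ 2 := by ring
      _ = ζ ^ 3 * ζ := by rw [h1]; ring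
      _ = ζ := by rw [h3, one_mul]

end Fermat.Agent.S14
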