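import Fermat.Agent.S14.Kappa

/-!
# S14, task T03: Thaine's relation
-/

set_option autoImplicit false
set_option linter.style.haveILetI false
set_option linter.unusedSectionVars false

namespace Fermat.Agent.S14

open NumberField IsCyclotomicExtension.Rat
open scoped Pointwise

variable {K : Type*} [Field K] [NumberField K]

namespace ThaineAux


/-- `φ ∘ mk0` extended by `1` to the zero ideal. -/
noncomputable def psi {p : ℕ} (φ : ClassGroup (𝓞 K) →* Multiplicative (ZMod p))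
    (I : Ideal (𝓞 K)) : Multiplicative (ZMod p) :=
  open Classical in
  if h : I ≠ ⊥ then φ (ClassGroup.mk0 ⟨I, mem_nonZeroDivisors_of_ne_zero h⟩) else 1

theorem psi_of_ne {p : ℕ} (φ : ClassGroup (𝓞 K) →* Multiplicative (ZMod p))
    {I : Ideal (𝓞 K)} (h : I ≠ ⊥) :
    psi φ I = φ (ClassGroup.mk0 ⟨I, mem_nonZeroDivisors_of_ne_zero h⟩) := by
  rw [psi, dif_pos h]

theorem psi_mul {p : ℕ} (φ : ClassGroup (𝓞 K) →* Multiplicative (ZMod p))
    {I J : Ideal (𝓞 K)} (hI : I ≠ ⊥) (hJ : J ≠ ⊥) :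
    psi φ (I * J) = psi φ I * psi φ J := by
  rw [psi_of_ne φ hI, psi_of_ne φ hJ, psi_of_ne φ (mul_ne_zero hI hJ), ← map_mul, ← map_mul]
  rfl

theorem psi_one {p : ℕ} (φ : ClassGroup (𝓞 K) →* Multiplicative (ZMod p)) :
    psi φ 1 = 1 := by
  rw [psi_of_ne φ one_ne_zero]
  have : (⟨1, mem_nonZeroDivisors_of_ne_zero one_ne_zero⟩ : nonZeroDivisors (Ideal (𝓞 K))) = 1 := rfl
  rw [this, map_one, map_one]

theorem psi_pow {p : ℕ} (φ : ClassGroup (𝓞 K) →* Multiplicative (ZMod p))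
    {I : Ideal (𝓞 K)} (hI : I ≠ ⊥) (n : ℕ) :
    psi φ (I ^ n) = psi φ I ^ n := by
  induction n with
  | zero => simpa using psi_one φ
  | succ n ih => rw [pow_succ, pow_succ, psi_mul φ (pow_ne_zero n hI) hI, ih]

theorem psi_span {p : ℕ} (φ : ClassGroup (𝓞 K) →* Multiplicative (ZMod p))
    {x : 𝓞 K} (hx : x ≠ 0) : psi φ (Ideal.span {x}) = 1 := by
  have h : Ideal.span {x} ≠ ⊥ := by simpa using hx
  rw [psi_of_ne φ h, (ClassGroup.mk0_eq_one_iff _).mpr ⟨x, rfl⟩, map_one]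

theorem psi_prod {p : ℕ} (φ : ClassGroup (𝓞 K) →* Multiplicative (ZMod p))
    {ι : Type*} (S : Finset ι) (f : ι → Ideal (𝓞 K)) (hf : ∀ i ∈ S, f i ≠ ⊥) :
    psi φ (∏ i ∈ S, f i) = ∏ i ∈ S, psi φ (f i) := by
  classical
  induction S using Finset.induction_on with
  | empty => simpa using psi_one φ
  | insert a S ha ih =>
    rw [Finset.prod_insert ha, Finset.prod_insert ha, psi_mul φ (hf a (Finset.mem_insert_self a S))
      (Finset.prod_ne_zero_iff.mpr fun i hi => hf i (Finset.mem_insert_of_mem hi)),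
      ih fun i hi => hf i (Finset.mem_insert_of_mem hi)]

theorem pow_p_eq_one {p : ℕ} (a : Multiplicative (ZMod p)) : a ^ p = 1 := by
  apply Multiplicative.toAdd.injective
  simp



theorem prod_units_eq {p : ℕ} [Fact p.Prime] {M : Type*} [CommMonoid M] (f : ℕ → M) :
    ∏ u : (ZMod p)ˣ, f u.val.val = ∏ t ∈ Finset.Ico 1 p, f t := by
  have hp : p.Prime := Fact.out
  refine Finset.prod_bij (fun u _ => u.val.val) ?_ ?_ ?_ ?_
  · intro u _
    rw [Finset.mem_Ico]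
    refine ⟨?_, ZMod.val_lt _⟩
    rw [Nat.one_le_iff_ne_zero, Ne, ZMod.val_eq_zero]
    exact u.ne_zero
  · intro u _ u' _ h
    exact Units.ext (ZMod.val_injective p h)
  · intro t ht
    rw [Finset.mem_Ico] at ht
    have hc : t.Coprime p := by
      rw [Nat.coprime_comm, hp.coprime_iff_not_dvd]
      intro h
      have := Nat.le_of_dvd (by omega) h
      omega
    refine ⟨ZMod.unitOfCoprime t hc, Finset.mem_univ _, ?_⟩
    rw [ZMod.coe_unitOfCoprime, ZMod.val_natCast, Nat.mod_eq_of_lt ht.2]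
  · intro u _
    rfl

/-- the exponent `t` with `σ ζ = ζ ^ t`. -/
noncomputable def tt (p : ℕ) [NeZero p] [IsCyclotomicExtension {p} ℚ K] (σ : K ≃ₐ[ℚ] K) : ℕ :=
  (galEquivZMod p K σ).val.val

theorem prod_gal_eq {p : ℕ} [Fact p.Prime] [IsCyclotomicExtension {p} ℚ K]
    {M : Type*} [CommMonoid M] (f : ℕ → M) :
    ∏ σ : K ≃ₐ[ℚ] K, f (tt p σ) = ∏ t ∈ Finset.Ico 1 p, f t := by
  rw [← prod_units_eq]
  exact Fintype.prod_equiv (galEquivZMod p K).toEquiv _ _ fun σ => rfl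

theorem sig_zeta {p : ℕ} [Fact p.Prime] [IsCyclotomicExtension {p} ℚ K] {ζ : K}
    (hζ : IsPrimitiveRoot ζ p) (σ : K ≃ₐ[ℚ] K) : σ ζ = ζ ^ tt p σ :=
  galEquivZMod_apply_of_pow_eq p K σ hζ.pow_eq_one

theorem smul_toInteger {p : ℕ} [Fact p.Prime] [IsCyclotomicExtension {p} ℚ K] {ζ : K}
    (hζ : IsPrimitiveRoot ζ p) (σ : K ≃ₐ[ℚ] K) : σ • hζ.toInteger = hζ.toInteger ^ tt p σ :=
  galEquivZMod_smul_of_pow_eq p K σ hζ.toInteger_isPrimitiveRoot.pow_eq_one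

theorem sigO_eq_smul (σ : K ≃ₐ[ℚ] K) (x : 𝓞 K) : sigO σ x = σ • x := by
  apply RingOfIntegers.ext
  rfl

theorem map_sigO (σ : K ≃ₐ[ℚ] K) (I : Ideal (𝓞 K)) :
    I.map (sigO σ : 𝓞 K →+* 𝓞 K) = σ • I := by
  rw [Ideal.pointwise_smul_def]
  congr 1



theorem exists_primitive_root (q : ℕ) (hq : q.Prime) :
    ∃ g : ℕ, orderOf (g : ZMod q) = q - 1 := by
  haveI : Fact q.Prime := ⟨hq⟩
  obtain ⟨u, hu⟩ := IsCyclic.exists_generator (α := (ZMod q)ˣ)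
  refine ⟨u.val.val, ?_⟩
  rw [ZMod.natCast_val, ZMod.cast_id', id, orderOf_units, orderOf_eq_card_of_forall_mem_zpowers hu,
    Nat.card_eq_fintype_card, ZMod.card_units]

/-- a prime ideal of prime norm `q` lies over `q`. -/
theorem liesOver_of_absNorm (Q : Ideal (𝓞 K)) [Q.IsPrime] {q : ℕ} (hq : q.Prime)
    (hmem : (q : 𝓞 K) ∈ Q) : Q.LiesOver (Ideal.span {(q : ℤ)}) := by
  constructor
  have hmax : (Ideal.span {(q : ℤ)}).IsMaximal :=
    ((Ideal.span_singleton_prime (by exact_mod_cast hq.ne_zero)).mpr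
      (Nat.prime_iff_prime_int.mp hq)).isMaximal (by simpa using hq.ne_zero)
  refine hmax.eq_of_le ?_ ?_
  · exact (Ideal.IsPrime.under ℤ Q).ne_top
  · rw [Ideal.span_singleton_le_iff_mem, Ideal.mem_comap]
    simpa using hmem

theorem dvd_sub_one {p : ℕ} [Fact p.Prime] [IsCyclotomicExtension {p} ℚ K] {ζ : K}
    (hζ : IsPrimitiveRoot ζ p) (Q : Ideal (𝓞 K)) [Q.IsPrime] {q : ℕ} (hq : q.Prime)
    (h : Ideal.absNorm Q = q) (hqp : q ≠ p) : p ∣ q - 1 := by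
  have hp : p.Prime := Fact.out
  have h1 : IsPrimitiveRoot (Ideal.Quotient.mk Q hζ.toInteger) p :=
    hζ.toInteger_isPrimitiveRoot.idealQuotient_mk (by rw [h]; exact hq.one_lt.ne')
      (by rw [h]; exact (Nat.coprime_primes hq hp).mpr hqp)
  have hQ0 : Q ≠ ⊥ := by
    rintro rfl
    rw [Ideal.absNorm_bot] at h
    exact hq.ne_zero h.symm
  haveI : Q.IsMaximal := Ring.DimensionLEOne.maximalOfPrime hQ0 inferInstance
  letI := Ideal.Quotient.field Q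
  haveI : Finite (𝓞 K ⧸ Q) := Ring.HasFiniteQuotients.finiteQuotient hQ0
  letI := Fintype.ofFinite (𝓞 K ⧸ Q)
  have hcard : Fintype.card (𝓞 K ⧸ Q) = q := by
    rw [← Nat.card_eq_fintype_card, ← h]
    rfl
  rw [← h1.pow_eq_one_iff_dvd, ← hcard]
  exact FiniteField.pow_card_sub_one_eq_one _ (h1.ne_zero hp.ne_zero)


theorem stabilizer_trivial {p : ℕ} [Fact p.Prime] [IsCyclotomicExtension {p} ℚ K]
    (Q : Ideal (𝓞 K)) [Q.IsPrime] (hQ0 : Q ≠ ⊥) {q : ℕ} (hq : q.Prime)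
    (hmem : (q : 𝓞 K) ∈ Q) (hqp : q ≠ p) (hpq : p ∣ q - 1) (σ : K ≃ₐ[ℚ] K) (hσ : σ • Q = Q) :
    σ = 1 := by
  have hp : p.Prime := Fact.out
  haveI : Fact q.Prime := ⟨hq⟩
  haveI : Q.IsMaximal := Ring.DimensionLEOne.maximalOfPrime hQ0 inferInstance
  haveI := liesOver_of_absNorm Q hq hmem
  have hn : q.Coprime p := (Nat.coprime_primes hq hp).mpr hqp
  have h1 := mem_zpowers_galEquivZMod_of_mem_stabilizer p K q Q hn (σ := σ)
    (MulAction.mem_stabilizer_iff.mpr hσ)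
  have h2 : ZMod.unitOfCoprime q hn = 1 := by
    apply Units.ext
    rw [ZMod.coe_unitOfCoprime, Units.val_one]
    obtain ⟨c, hc⟩ := hpq
    have : q = p * c + 1 := by have := hq.one_lt; omega
    rw [this]
    simp
  rw [h2, Subgroup.zpowers_one_eq_bot, Subgroup.mem_bot] at h1
  exact (galEquivZMod p K).injective (by rw [h1, map_one])

end ThaineAux

open ThaineAux

/-- If `φ` is of type `ω²` and `φ(𝔮) ≠ 0` for a prime `𝔮` of degree one, then `η` is a `p`-th power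
modulo `𝔮`. -/
theorem thaine {p : ℕ} [Fact p.Prime] [IsCyclotomicExtension {p} ℚ K] {ζ : K}
    (hζ : IsPrimitiveRoot ζ p) (hp2 : p ≠ 2)
    (φ : ClassGroup (𝓞 K) →* Multiplicative (ZMod p)) (hφ : IsHomTypeSq p ζ φ)
    (v : IsDedekindDomain.HeightOneSpectrum (𝓞 K)) (hv : (Ideal.absNorm v.asIdeal).Prime)
    (hvp : Ideal.absNorm v.asIdeal ≠ p)
    (hφv : φ (ClassGroup.mk0 ⟨v.asIdeal, mem_nonZeroDivisors_of_ne_zero v.ne_bot⟩) ≠ 1) :
    ∃ y : 𝓞 K, y ^ p - etaElt p hζ.toInteger ∈ v.asIdeal := by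
  classical
  have hp : p.Prime := Fact.out
  obtain ⟨Q0, hQ0def⟩ : ∃ Q0, Q0 = v.asIdeal := ⟨_, rfl⟩
  obtain ⟨q, hqdef⟩ : ∃ q, q = Ideal.absNorm v.asIdeal := ⟨_, rfl⟩
  haveI : Q0.IsPrime := hQ0def ▸ v.isPrime
  have hQ0ne : Q0 ≠ ⊥ := hQ0def ▸ v.ne_bot
  have hq : q.Prime := hqdef ▸ hv
  have hqp : q ≠ p := hqdef ▸ hvp
  have hnorm : Ideal.absNorm Q0 = q := by rw [hQ0def, hqdef]
  have hqmem : (q : 𝓞 K) ∈ Q0 := hnorm ▸ Ideal.absNorm_mem Q0
  have hpq : p ∣ q - 1 := dvd_sub_one hζ Q0 hq hnorm hqp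
  haveI : IsGalois ℚ K := IsCyclotomicExtension.isGalois {p} ℚ K
  obtain ⟨g, hg⟩ := exists_primitive_root q hq
  obtain ⟨S, r, x, y, B₁, B₂, hS, hx, hy, hB₁, hB₂, hid, hcong⟩ :=
    exists_kappa hζ hp2 q hq hpq g hg
  -- the primes above `q`
  let 𝔮 : (K ≃ₐ[ℚ] K) → Ideal (𝓞 K) := fun τ => τ⁻¹ • Q0
  have h𝔮prime : ∀ τ, (𝔮 τ).IsPrime := by
    intro τ
    show (τ⁻¹ • Q0).IsPrime
    rw [← map_sigO]
    exact Ideal.map_isPrime_of_equiv (sigO τ⁻¹)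
  have h𝔮mem : ∀ τ, (q : 𝓞 K) ∈ 𝔮 τ := by
    intro τ
    show (q : 𝓞 K) ∈ τ⁻¹ • Q0
    rw [Ideal.mem_inv_pointwise_smul_iff, ← sigO_eq_smul, map_natCast]
    exact hqmem
  have h𝔮ne : ∀ τ, 𝔮 τ ≠ ⊥ := by
    intro τ h
    have := h𝔮mem τ
    rw [h, Ideal.mem_bot] at this
    exact hq.ne_zero (by exact_mod_cast this)
  have h𝔮S : ∀ τ, 𝔮 τ ∈ S := fun τ => (hS _).mpr ⟨h𝔮prime τ, h𝔮mem τ⟩
  have hinj : Function.Injective 𝔮 := by
    intro τ τ' h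
    have h1 : (τ * τ'⁻¹) • Q0 = Q0 := by
      have h2 : τ⁻¹ • Q0 = τ'⁻¹ • Q0 := h
      rw [mul_smul, ← h2, smul_inv_smul]
    have := stabilizer_trivial Q0 hQ0ne hq hqmem hqp hpq _ h1
    exact mul_inv_eq_one.mp this
  have hSimg : S = Finset.univ.image 𝔮 := by
    ext I
    rw [hS, Finset.mem_image]
    constructor
    · rintro ⟨hI, hqI⟩
      haveI := liesOver_of_absNorm Q0 hq hqmem
      haveI := liesOver_of_absNorm I hq hqI
      obtain ⟨σ, hσ⟩ := Ideal.exists_smul_eq_of_isGaloisGroup (Ideal.span {(q : ℤ)}) Q0 I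
        (K ≃ₐ[ℚ] K)
      exact ⟨σ⁻¹, Finset.mem_univ _, by show (σ⁻¹)⁻¹ • Q0 = I; rw [inv_inv, hσ]⟩
    · rintro ⟨τ, -, rfl⟩
      exact ⟨h𝔮prime τ, h𝔮mem τ⟩
  -- the relation in the class group
  have hprod : ∏ τ, psi φ (𝔮 τ) ^ r (𝔮 τ) = 1 := by
    have h1 := congrArg (psi φ) hid
    have hSne : ∀ I ∈ S, I ^ r I ≠ ⊥ := by
      intro I hI
      rw [hSimg, Finset.mem_image] at hI
      obtain ⟨τ, -, rfl⟩ := hI
      exact pow_ne_zero _ (h𝔮ne τ)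
    have hxs : Ideal.span {x} ≠ ⊥ := by simpa using hx
    have hys : Ideal.span {y} ≠ ⊥ := by simpa using hy
    rw [psi_mul φ hxs (pow_ne_zero _ hB₂), psi_span φ hx, psi_pow φ hB₂, pow_p_eq_one,
      psi_mul φ (mul_ne_zero hys (pow_ne_zero _ hB₁)) (Finset.prod_ne_zero_iff.mpr hSne),
      psi_mul φ hys (pow_ne_zero _ hB₁), psi_span φ hy, psi_pow φ hB₁, pow_p_eq_one,
      psi_prod φ S _ hSne, hSimg, Finset.prod_image (fun a _ b _ h => hinj h)] at h1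
    simp only [one_mul] at h1
    rw [h1]
    exact Finset.prod_congr rfl fun τ _ => (psi_pow φ (h𝔮ne τ) _).symm
  have hφτ : ∀ τ, psi φ Q0 = psi φ (𝔮 τ) ^ (tt p τ) ^ 2 := by
    intro τ
    rw [psi_of_ne φ hQ0ne, psi_of_ne φ (h𝔮ne τ)]
    refine hφ τ (tt p τ) (sig_zeta hζ τ) _ _ ?_
    show Q0 = (τ⁻¹ • Q0).map (sigO τ : 𝓞 K →+* 𝓞 K)
    rw [map_sigO, smul_inv_smul]
  have ha : psi φ Q0 ≠ 1 := by
    rw [psi_of_ne φ hQ0ne]
    subst hQ0def
    exact hφv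
  -- additive version
  have htne : ∀ τ : K ≃ₐ[ℚ] K, ((tt p τ : ℕ) : ZMod p) ≠ 0 := by
    intro τ
    rw [tt, ZMod.natCast_zmod_val]
    exact (galEquivZMod p K τ).ne_zero
  have hb : ∀ τ, Multiplicative.toAdd (psi φ (𝔮 τ)) =
      ((invSq p (tt p τ) : ℕ) : ZMod p) * Multiplicative.toAdd (psi φ Q0) := by
    intro τ
    rw [hφτ τ, toAdd_pow, nsmul_eq_mul, invSq, ZMod.natCast_zmod_val]
    push_cast
    field_simp [htne τ]
  obtain ⟨E, hEdef⟩ : ∃ E : ℕ, E = ∑ τ, r (𝔮 τ) * invSq p (tt p τ) := ⟨_, rfl⟩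
  have hE : (E : ZMod p) * Multiplicative.toAdd (psi φ Q0) = 0 := by
    have h1 := congrArg Multiplicative.toAdd hprod
    rw [toAdd_prod, toAdd_one] at h1
    rw [hEdef, Nat.cast_sum, Finset.sum_mul, ← h1]
    refine Finset.sum_congr rfl fun τ _ => ?_
    rw [toAdd_pow, nsmul_eq_mul, hb τ]
    push_cast
    ring
  have hpE : p ∣ E := by
    rw [← ZMod.natCast_eq_zero_iff]
    rcases mul_eq_zero.mp hE with h | h
    · exact h
    · exact absurd (Multiplicative.toAdd.injective (by rw [h, toAdd_one])) ha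
  -- `η ≡ g ^ E`
  have hmk : ∀ τ : K ≃ₐ[ℚ] K, Ideal.Quotient.mk Q0 (1 - hζ.toInteger ^ tt p τ) =
      Ideal.Quotient.mk Q0 (g : 𝓞 K) ^ r (𝔮 τ) := by
    intro τ
    have h1 : (g : 𝓞 K) ^ r (𝔮 τ) - (1 - hζ.toInteger) ∈ τ⁻¹ • Q0 := hcong _ (h𝔮S τ)
    rw [Ideal.mem_inv_pointwise_smul_iff, ← sigO_eq_smul, map_sub, map_sub, map_pow, map_natCast,
      map_one, sigO_eq_smul, smul_toInteger] at h1
    rw [← map_pow]
    exact ((Ideal.Quotient.eq).mpr h1).symm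
  have hη : Ideal.Quotient.mk Q0 (etaElt p hζ.toInteger) = Ideal.Quotient.mk Q0 (g : 𝓞 K) ^ E := by
    rw [etaElt, ← prod_gal_eq (K := K) (fun t => (1 - hζ.toInteger ^ t) ^ invSq p t), map_prod,
      hEdef, ← Finset.prod_pow_eq_pow_sum]
    refine Finset.prod_congr rfl fun τ _ => ?_
    rw [map_pow, hmk τ, ← pow_mul]
  obtain ⟨m, hm⟩ := hpE
  refine ⟨(g : 𝓞 K) ^ m, ?_⟩
  rw [← hQ0def, ← Ideal.Quotient.eq, hη, hm, map_pow, map_pow, ← pow_mul, mul_comm]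

end Fermat.Agent.S14
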