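import Fermat.Agent.S14.Defs

/-!
# S14, task T05: the `ω²`-eigenspace of `E/E^p` has dimension at most one
-/

set_option autoImplicit false

namespace Fermat.Agent.S14

namespace UnitsDim

open Finset

section abstract

variable {G : Type*} [CommGroup G] (s : G →* G) (u : ℕ)

/-- `T x = s x / x ^ u`. -/
noncomputable def tMap : G →* G := s / powMonoidHom u

theorem tMap_apply (x : G) : tMap s u x = s x / x ^ u := rfl

theorem s_eq (x : G) : s x = tMap s u x * x ^ u := by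
  rw [tMap_apply, div_mul_cancel]

theorem iter_div_mem (H : Subgroup G) (hH : ∀ x ∈ H, s x ∈ H) {x : G} (hx : x ∈ H) (k : ℕ) :
    s^[k] x ∈ H ∧ s^[k] x / x ^ (u ^ k) ∈ H.map (tMap s u) := by
  induction k with
  | zero => simpa using hx
  | succ k ih =>
    obtain ⟨h1, h2⟩ := ih
    refine ⟨by rw [Function.iterate_succ_apply']; exact hH _ h1, ?_⟩
    have : s^[k+1] x / x ^ (u ^ (k+1)) = tMap s u (s^[k] x) * (s^[k] x / x ^ (u ^ k)) ^ u := by
      rw [Function.iterate_succ_apply', s_eq s u (s^[k] x), div_pow, ← pow_mul, pow_succ, mul_div_assoc]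
    rw [this]
    exact mul_mem (Subgroup.mem_map_of_mem _ h1) (pow_mem h2 _)

theorem iter_eq_pow {x : G} (hx : s x = x ^ u) (k : ℕ) : s^[k] x = x ^ (u ^ k) := by
  induction k with
  | zero => simp
  | succ k ih => rw [Function.iterate_succ_apply', ih, map_pow, hx, ← pow_mul, pow_succ, mul_comm]

variable {s u}

theorem tMap_injective {n : ℕ} (h1 : ∀ x, ∏ k ∈ range n, s^[k] x = 1)
    (h2 : ∀ x : G, x ^ (∑ k ∈ range n, u ^ k) = 1 → x = 1) : Function.Injective (tMap s u) := by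
  rw [injective_iff_map_eq_one]
  intro x hx
  rw [tMap_apply, div_eq_one] at hx
  apply h2
  rw [← h1 x, ← Finset.prod_pow_eq_pow_sum]
  exact Finset.prod_congr rfl fun k _ => (iter_eq_pow s u hx k).symm


theorem abstract_main {n p : ℕ} [Fact p.Prime] (h1 : ∀ x, ∏ k ∈ range n, s^[k] x = 1)
    (h2 : ∀ x : G, x ^ (∑ k ∈ range n, u ^ k) = 1 → x = 1)
    (h3 : ¬ p ^ 2 ∣ ∑ k ∈ range n, u ^ k) (x₀ : G)
    (h4 : (Subgroup.closure (Set.range fun k : ℕ => s^[k] x₀)).index ≠ 0)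
    (x₁ x₂ y₁ y₂ : G) (hx₁ : s x₁ = x₁ ^ u * y₁ ^ p) (hx₂ : s x₂ = x₂ ^ u * y₂ ^ p) :
    ∃ a b : ℤ, ¬ ((p : ℤ) ∣ a ∧ (p : ℤ) ∣ b) ∧ ∃ z : G, x₁ ^ a * x₂ ^ b = z ^ p := by
  classical
  by_contra hcon
  push Not at hcon
  set c := ∑ k ∈ range n, u ^ k with hc
  set T := tMap s u with hT
  have hTinj : Function.Injective T := tMap_injective h1 h2
  set H := Subgroup.closure (Set.range fun k : ℕ => s^[k] x₀) with hHdef
  have hx₀ : x₀ ∈ H := Subgroup.subset_closure ⟨0, rfl⟩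
  have hHs : ∀ x ∈ H, s x ∈ H := by
    intro x hx
    induction hx using Subgroup.closure_induction with
    | mem x hx =>
      obtain ⟨k, rfl⟩ := hx
      exact Subgroup.subset_closure ⟨k + 1, by simp only [Function.iterate_succ_apply']⟩
    | one => rw [map_one]; exact one_mem _
    | mul x y _ _ hx hy => rw [map_mul]; exact mul_mem hx hy
    | inv x _ hx => rw [map_inv]; exact inv_mem hx
  set M := H.map T with hM
  have hMH : M ≤ H := by
    rintro _ ⟨x, hx, rfl⟩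
    rw [hT, tMap_apply]
    exact div_mem (hHs x hx) (pow_mem hx _)
  -- `x₀ ^ c ∈ M`
  have hx₀c : x₀ ^ c ∈ M := by
    have : ∏ k ∈ range n, (s^[k] x₀ / x₀ ^ (u ^ k)) ∈ M :=
      Subgroup.prod_mem _ fun k _ => (iter_div_mem s u H hHs hx₀ k).2
    rw [Finset.prod_div_distrib, h1, Finset.prod_pow_eq_pow_sum, one_div] at this
    exact (inv_mem_iff).mp this
  -- every element of `H` is a power of `x₀` modulo `M`
  have hgen : ∀ h ∈ H, ∃ j : ℤ, h / x₀ ^ j ∈ M := by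
    intro h hh
    induction hh using Subgroup.closure_induction with
    | mem x hx =>
      obtain ⟨k, rfl⟩ := hx
      exact ⟨(u ^ k : ℕ), by rw [zpow_natCast]; exact (iter_div_mem s u H hHs hx₀ k).2⟩
    | one => exact ⟨0, by simp⟩
    | mul x y _ _ hx hy =>
      obtain ⟨i, hi⟩ := hx
      obtain ⟨j, hj⟩ := hy
      refine ⟨i + j, ?_⟩
      rw [zpow_add, mul_div_mul_comm]
      exact mul_mem hi hj
    | inv x _ hx =>
      obtain ⟨i, hi⟩ := hx
      refine ⟨-i, ?_⟩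
      rw [zpow_neg, ← inv_div_inv, inv_inv, inv_inv, ← inv_div]
      exact inv_mem hi
  -- relIndex divides c
  have hrel : M.relIndex H ∣ c := by
    rw [Subgroup.relIndex, Subgroup.index]
    set g : H ⧸ M.subgroupOf H := QuotientGroup.mk ⟨x₀, hx₀⟩ with hg
    have hall : ∀ q : H ⧸ M.subgroupOf H, q ∈ Subgroup.zpowers g := by
      intro q
      induction q using QuotientGroup.induction_on with
      | H z =>
        obtain ⟨j, hj⟩ := hgen z.1 z.2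
        refine ⟨j, ?_⟩
        simp only [hg]
        rw [← QuotientGroup.mk_zpow, QuotientGroup.eq, Subgroup.mem_subgroupOf]
        simp only [Subgroup.coe_mul, Subgroup.coe_inv, Subgroup.coe_zpow]
        rw [mul_comm, ← div_eq_mul_inv]
        exact hj
    rw [← orderOf_eq_card_of_forall_mem_zpowers hall]
    apply orderOf_dvd_of_pow_eq_one
    rw [hg, ← QuotientGroup.mk_pow, QuotientGroup.eq_one_iff, Subgroup.mem_subgroupOf]
    simpa using hx₀c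
  -- index of the range
  have hidx : T.range.index = M.relIndex H := by
    have e1 := Subgroup.index_map H T
    rw [(MonoidHom.ker_eq_bot_iff T).mpr hTinj, sup_bot_eq] at e1
    have e2 := Subgroup.relIndex_mul_index hMH
    rw [e1, mul_comm] at e2
    exact (Nat.eq_of_mul_eq_mul_left (Nat.pos_of_ne_zero h4) e2).symm
  -- `p ^ 2` divides the index of the range
  have hTx₁ : T x₁ = y₁ ^ p := by rw [hT, tMap_apply, hx₁, mul_div_cancel_left]
  have hTx₂ : T x₂ = y₂ ^ p := by rw [hT, tMap_apply, hx₂, mul_div_cancel_left]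
  have hp2 : p ^ 2 ∣ T.range.index := by
    let Q := Additive (G ⧸ T.range)
    let q₁ : Q := Additive.ofMul (QuotientGroup.mk y₁)
    let q₂ : Q := Additive.ofMul (QuotientGroup.mk y₂)
    have hq₁ : (p : ℤ) • q₁ = 0 := by
      change Additive.ofMul ((QuotientGroup.mk y₁ : G ⧸ T.range) ^ (p : ℤ)) = 0
      rw [zpow_natCast, ← QuotientGroup.mk_pow, ← hTx₁, (QuotientGroup.eq_one_iff (N := T.range) _).mpr (MonoidHom.mem_range.mpr ⟨x₁, rfl⟩)]
      rfl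
    have hq₂ : (p : ℤ) • q₂ = 0 := by
      change Additive.ofMul ((QuotientGroup.mk y₂ : G ⧸ T.range) ^ (p : ℤ)) = 0
      rw [zpow_natCast, ← QuotientGroup.mk_pow, ← hTx₂, (QuotientGroup.eq_one_iff (N := T.range) _).mpr (MonoidHom.mem_range.mpr ⟨x₂, rfl⟩)]
      rfl
    let f₁ : ZMod p →+ Q := ZMod.lift p ⟨zmultiplesHom Q q₁, by simpa using hq₁⟩
    let f₂ : ZMod p →+ Q := ZMod.lift p ⟨zmultiplesHom Q q₂, by simpa using hq₂⟩
    let f : ZMod p × ZMod p →+ Q := f₁.coprod f₂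
    have hf : Function.Injective f := by
      rw [injective_iff_map_eq_zero]
      rintro ⟨a, b⟩ hab
      obtain ⟨a, rfl⟩ := ZMod.intCast_surjective a
      obtain ⟨b, rfl⟩ := ZMod.intCast_surjective b
      have hab' : a • q₁ + b • q₂ = 0 := by
        simpa [f, f₁, f₂, AddMonoidHom.coprod_apply, ZMod.lift_coe] using hab
      have hmem : y₁ ^ a * y₂ ^ b ∈ T.range := by
        rw [← QuotientGroup.eq_one_iff]
        exact hab'
      obtain ⟨z, hz⟩ := hmem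
      have : x₁ ^ a * x₂ ^ b = z ^ p := by
        apply hTinj
        rw [map_mul, map_zpow, map_zpow, map_pow, hz, hTx₁, hTx₂, mul_pow, ← zpow_natCast,
          ← zpow_natCast, ← zpow_natCast, ← zpow_natCast, ← zpow_mul, ← zpow_mul, ← zpow_mul,
          ← zpow_mul, mul_comm a, mul_comm b]
      have hdiv : (p : ℤ) ∣ a ∧ (p : ℤ) ∣ b := by
        by_contra hnd
        exact hcon a b (fun h1 h2 => hnd ⟨h1, h2⟩) z this
      rw [Prod.mk_eq_zero]
      exact ⟨(ZMod.intCast_zmod_eq_zero_iff_dvd a p).mpr hdiv.1,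
        (ZMod.intCast_zmod_eq_zero_iff_dvd b p).mpr hdiv.2⟩
    have := AddSubgroup.card_dvd_of_injective f hf
    rw [Nat.card_prod, Nat.card_zmod, ← sq] at this
    exact this
  exact h3 ((hidx ▸ hp2).trans hrel)

end abstract

theorem index_closure_map {E G : Type*} [CommGroup E] [CommGroup G] (π : E →* G)
    (hπ : Function.Surjective π) (s : E →* E) (t : G →* G) (hcomm : ∀ x, t (π x) = π (s x))
    (u₀ : E) (h : (Subgroup.closure (Set.range fun k : ℕ => s^[k] u₀)).index ≠ 0) :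
    (Subgroup.closure (Set.range fun k : ℕ => t^[k] (π u₀))).index ≠ 0 := by
  have hit : ∀ k : ℕ, t^[k] (π u₀) = π (s^[k] u₀) := by
    intro k
    induction k with
    | zero => rfl
    | succ k ih => rw [Function.iterate_succ_apply', ih, hcomm, Function.iterate_succ_apply']
  have e : Subgroup.closure (Set.range fun k : ℕ => t^[k] (π u₀)) =
      (Subgroup.closure (Set.range fun k : ℕ => s^[k] u₀)).map π := by
    rw [MonoidHom.map_closure, ← Set.range_comp]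
    congr 2
    funext k
    exact hit k
  rw [e]
  intro h0
  have := Subgroup.index_map_dvd (Subgroup.closure (Set.range fun k : ℕ => s^[k] u₀)) hπ
  rw [h0, zero_dvd_iff] at this
  exact h this

theorem abstract_quot {E G : Type*} [CommGroup E] [CommGroup G] (π : E →* G)
    (hπ : Function.Surjective π) (s : E →* E) (t : G →* G) (hcomm : ∀ x, t (π x) = π (s x))
    {n p u : ℕ} [Fact p.Prime] (h1 : ∀ x, π (∏ k ∈ range n, s^[k] x) = 1)
    (h2 : ∀ x : G, x ^ (∑ k ∈ range n, u ^ k) = 1 → x = 1)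
    (h3 : ¬ p ^ 2 ∣ ∑ k ∈ range n, u ^ k) (u₀ : E)
    (h4 : (Subgroup.closure (Set.range fun k : ℕ => s^[k] u₀)).index ≠ 0)
    (ε₁ ε₂ δ₁ δ₂ : E) (hx₁ : s ε₁ = ε₁ ^ u * δ₁ ^ p) (hx₂ : s ε₂ = ε₂ ^ u * δ₂ ^ p) :
    ∃ a b : ℤ, ¬ ((p : ℤ) ∣ a ∧ (p : ℤ) ∣ b) ∧ ∃ δ : E, π (ε₁ ^ a * ε₂ ^ b / δ ^ p) = 1 := by
  have hit : ∀ (x : E) (k : ℕ), t^[k] (π x) = π (s^[k] x) := by
    intro x k
    induction k with
    | zero => rfl
    | succ k ih => rw [Function.iterate_succ_apply', ih, hcomm, Function.iterate_succ_apply']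
  have H1 : ∀ x : G, ∏ k ∈ range n, t^[k] x = 1 := by
    intro x
    obtain ⟨x, rfl⟩ := hπ x
    simp_rw [hit]
    rw [← map_prod, h1]
  obtain ⟨a, b, hab, z, hz⟩ := abstract_main (s := t) (u := u) (p := p) H1 h2 h3 (π u₀)
    (index_closure_map π hπ s t hcomm u₀ h4) (π ε₁) (π ε₂) (π δ₁) (π δ₂)
    (by rw [hcomm, hx₁, map_mul, map_pow, map_pow]) (by rw [hcomm, hx₂, map_mul, map_pow, map_pow])
  obtain ⟨δ, rfl⟩ := hπ z
  exact ⟨a, b, hab, δ, by rw [map_div, map_mul, map_zpow, map_zpow, map_pow, hz, div_self']⟩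

theorem arith {p : ℕ} [hp : Fact p.Prime] (a : ℕ) (ha : ¬ p ∣ a) :
    ¬ p ^ 2 ∣ ∑ k ∈ range (p - 1), a ^ k ∨ ¬ p ^ 2 ∣ ∑ k ∈ range (p - 1), (a + p) ^ k := by
  by_contra hcon
  push Not at hcon
  obtain ⟨h1, h2⟩ := hcon
  have h1' : ((p : ℤ) ^ 2) ∣ (a : ℤ) ^ (p - 1) - 1 := by
    rw [← geom_sum_mul]
    exact Dvd.dvd.mul_right (by exact_mod_cast h1) _
  have h2' : ((p : ℤ) ^ 2) ∣ ((a : ℤ) + p) ^ (p - 1) - 1 := by
    rw [← geom_sum_mul]
    exact Dvd.dvd.mul_right (by exact_mod_cast h2) _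
  have h3 : ((p : ℤ) ^ 2) ∣ ((a : ℤ) + p) ^ (p - 1) - (a : ℤ) ^ (p - 1) := by
    have := dvd_sub h2' h1'
    rwa [sub_sub_sub_cancel_right] at this
  rw [← geom_sum₂_mul, add_sub_cancel_left, sq] at h3
  have hp0 : (p : ℤ) ≠ 0 := by exact_mod_cast hp.out.ne_zero
  have h4 : (p : ℤ) ∣ ∑ i ∈ range (p - 1), ((a : ℤ) + p) ^ i * (a : ℤ) ^ (p - 1 - 1 - i) :=
    (mul_dvd_mul_iff_right hp0).mp h3
  rw [← ZMod.intCast_zmod_eq_zero_iff_dvd] at h4
  push_cast at h4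
  simp only [CharP.cast_eq_zero, add_zero] at h4
  rw [geom_sum₂_self] at h4
  have ha' : (a : ZMod p) ≠ 0 := by
    rwa [Ne, ZMod.natCast_eq_zero_iff]
  have hp1 : ((p - 1 : ℕ) : ZMod p) ≠ 0 := by
    rw [Ne, ZMod.natCast_eq_zero_iff]
    intro h
    have := Nat.le_of_dvd (by have := hp.out.two_le; omega) h
    have := hp.out.two_le
    omega
  exact (mul_ne_zero hp1 (pow_ne_zero _ ha')) h4

open Finset NumberField NumberField.Units NumberField.InfinitePlace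
open NumberField.Units.dirichletUnitTheorem Module

variable {K : Type*} [Field K] [NumberField K]

set_option backward.isDefEq.respectTransparency.types false in
theorem linInd_of_neg (U : {w : InfinitePlace K // w ≠ w₀} → (𝓞 K)ˣ)
    (hU : ∀ (w : {w : InfinitePlace K // w ≠ w₀}) (w' : InfinitePlace K), w' ≠ w.val →
      Real.log (w' (U w : K)) < 0) :
    LinearIndependent ℝ (fun w => logEmbedding K (Additive.ofMul (U w))) := by
  classical
  let B := Pi.basisFun ℝ {w : InfinitePlace K // w ≠ w₀}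
  let v := fun w : { w : InfinitePlace K // w ≠ w₀ } ↦ logEmbedding K (Additive.ofMul (U w))
  suffices B.det v ≠ 0 by
    rw [← isUnit_iff_ne_zero, ← Basis.is_basis_iff_det] at this
    exact this.1
  rw [Basis.det_apply]
  refine det_ne_zero_of_sum_col_lt_diag (fun w ↦ ?_)
  simp_rw [Real.norm_eq_abs, B, Basis.coePiBasisFun.toMatrix_eq_transpose, Matrix.transpose_apply]
  rw [← sub_pos, sum_congr rfl (fun x hx ↦ abs_of_neg ?_), sum_neg_distrib, sub_neg_eq_add,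
    sum_erase_eq_sub (mem_univ _), ← add_comm_sub]
  · refine add_pos_of_nonneg_of_pos ?_ ?_
    · rw [sub_nonneg]
      exact le_abs_self _
    · rw [sum_logEmbedding_component (U w)]
      refine mul_pos_of_neg_of_neg ?_ (hU w _ w.prop.symm)
      rw [mult]; split_ifs <;> norm_num
  · refine mul_neg_of_pos_of_neg ?_ (hU w x ?_)
    · rw [mult]; split_ifs <;> norm_num
    · exact Subtype.ext_iff.not.mp (ne_of_mem_erase hx)

/-- the action of `σ` on units. -/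
noncomputable abbrev sU (σ : K ≃ₐ[ℚ] K) : (𝓞 K)ˣ →* (𝓞 K)ˣ := Units.map (sigO σ : 𝓞 K →* 𝓞 K)

theorem coe_sU (σ : K ≃ₐ[ℚ] K) (ε : (𝓞 K)ˣ) : ((sU σ ε : (𝓞 K)ˣ) : K) = σ (ε : K) := rfl

theorem coe_sU_iter (σ : K ≃ₐ[ℚ] K) (ε : (𝓞 K)ˣ) (k : ℕ) :
    (((sU σ)^[k] ε : (𝓞 K)ˣ) : K) = (σ ^ k) (ε : K) := by
  induction k with
  | zero => simp
  | succ k ih => rw [Function.iterate_succ_apply', coe_sU, ih, pow_succ', AlgEquiv.mul_apply]


omit [NumberField K] in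
theorem units_ext {a b : (𝓞 K)ˣ} (h : (a : K) = (b : K)) : a = b :=
  Units.ext (RingOfIntegers.ext h)

theorem exists_finiteIndex [IsGalois ℚ K] (σ : K ≃ₐ[ℚ] K)
    (hσ : ∀ τ : K ≃ₐ[ℚ] K, τ ∈ Subgroup.zpowers σ) :
    ∃ u₀ : (𝓞 K)ˣ, (Subgroup.closure (Set.range fun k : ℕ => (sU σ)^[k] u₀)).FiniteIndex := by
  classical
  obtain ⟨u₀, hu₀⟩ := exists_unit K (w₀ : InfinitePlace K)
  refine ⟨u₀, ?_⟩
  have hex : ∀ w : InfinitePlace K, ∃ τ : K ≃ₐ[ℚ] K, τ • (w₀ : InfinitePlace K) = w := fun w =>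
    exists_smul_eq_of_comap_eq (k := ℚ) (Subsingleton.elim _ _)
  choose τ hτ using hex
  let U : {w : InfinitePlace K // w ≠ w₀} → (𝓞 K)ˣ := fun w => sU (τ w.val) u₀
  have hU : ∀ (w : {w : InfinitePlace K // w ≠ w₀}) (w' : InfinitePlace K), w' ≠ w.val →
      Real.log (w' (U w : K)) < 0 := by
    intro w w' hw'
    have h1 : w' (U w : K) = ((τ w.val)⁻¹ • w') (u₀ : K) := rfl
    rw [h1]
    apply hu₀
    intro h
    apply hw'
    have h2 : w' = τ w.val • ((τ w.val)⁻¹ • w') := (smul_inv_smul _ _).symm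
    rw [h2, congrArg (fun z => τ w.val • z) h]
    exact hτ w.val
  have hlin := linInd_of_neg U hU
  let u : Fin (rank K) → (𝓞 K)ˣ := U ∘ equivFinRank K
  have hmax : IsMaxRank u := (linearIndependent_equiv (equivFinRank K)).mpr hlin
  have hfi := isMaxRank_iff_closure_finiteIndex.mp hmax
  refine Subgroup.finiteIndex_of_le (H := Subgroup.closure (Set.range u)) ?_
  apply Subgroup.closure_mono
  rintro _ ⟨i, rfl⟩
  obtain ⟨k, hk⟩ := (mem_powers_iff_mem_zpowers).mpr (hσ (τ (equivFinRank K i).val))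
  refine ⟨k, ?_⟩
  apply units_ext
  simp only []
  have hk' : σ ^ k = τ (equivFinRank K i).val := hk
  rw [coe_sU_iter, hk']
  rfl


theorem prod_iter_sq [IsGalois ℚ K] (σ : K ≃ₐ[ℚ] K)
    (hσ : ∀ τ : K ≃ₐ[ℚ] K, τ ∈ Subgroup.zpowers σ) (ε : (𝓞 K)ˣ) :
    (∏ k ∈ range (Nat.card (K ≃ₐ[ℚ] K)), (sU σ)^[k] ε) ^ 2 = 1 := by
  classical
  apply units_ext
  have h1 : ((∏ k ∈ range (Nat.card (K ≃ₐ[ℚ] K)), (sU σ)^[k] ε : (𝓞 K)ˣ) : K) =
      ∏ k ∈ range (Nat.card (K ≃ₐ[ℚ] K)), (σ ^ k) (ε : K) := by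
    rw [Units.coe_prod, map_prod]
    exact Finset.prod_congr rfl fun k _ => coe_sU_iter σ ε k
  have h2 : ∏ k ∈ range (Nat.card (K ≃ₐ[ℚ] K)), (σ ^ k) (ε : K) =
      ∏ τ : K ≃ₐ[ℚ] K, τ (ε : K) := by
    rw [← IsCyclic.image_range_card hσ, Finset.prod_image]
    intro i hi j hj hij
    rw [← orderOf_eq_card_of_forall_mem_zpowers hσ] at hi hj
    exact pow_injOn_Iio_orderOf (by simpa using hi) (by simpa using hj) hij
  rw [Units.val_pow_eq_pow_val, map_pow, h1, h2, ← Algebra.norm_eq_prod_automorphisms, ← map_pow,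
    ← sq_abs, Units.norm]
  simp


theorem torsion_le_comap (σ : K ≃ₐ[ℚ] K) : torsion K ≤ (torsion K).comap (sU σ) := by
  intro x hx
  rw [Subgroup.mem_comap, torsion, CommGroup.mem_torsion] at *
  exact (sU σ).isOfFinOrder hx

/-- the action of `σ` on units modulo torsion. -/
noncomputable def sBar (σ : K ≃ₐ[ℚ] K) : (𝓞 K)ˣ ⧸ torsion K →* (𝓞 K)ˣ ⧸ torsion K :=
  QuotientGroup.map (torsion K) (torsion K) (sU σ) (torsion_le_comap σ)

theorem sBar_mk (σ : K ≃ₐ[ℚ] K) (ε : (𝓞 K)ˣ) :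
    sBar σ (QuotientGroup.mk ε) = QuotientGroup.mk (sU σ ε) := rfl

theorem sBar_iter_mk (σ : K ≃ₐ[ℚ] K) (ε : (𝓞 K)ˣ) (k : ℕ) :
    (sBar σ)^[k] (QuotientGroup.mk ε) = QuotientGroup.mk ((sU σ)^[k] ε) := by
  induction k with
  | zero => rfl
  | succ k ih => rw [Function.iterate_succ_apply', ih, sBar_mk, Function.iterate_succ_apply']


omit [NumberField K] in
theorem core_H2 {c : ℕ} (hc0 : c ≠ 0) (x : (𝓞 K)ˣ ⧸ torsion K) (h : x ^ c = 1) : x = 1 := by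
  induction x using QuotientGroup.induction_on with
  | H ε =>
    rw [← QuotientGroup.mk_pow, QuotientGroup.eq_one_iff, torsion, CommGroup.mem_torsion] at h
    rw [QuotientGroup.eq_one_iff, torsion, CommGroup.mem_torsion]
    exact h.of_pow hc0

theorem core [IsGalois ℚ K] (σ : K ≃ₐ[ℚ] K) (hσ : ∀ τ : K ≃ₐ[ℚ] K, τ ∈ Subgroup.zpowers σ)
    {p : ℕ} [Fact p.Prime] (u : ℕ)
    (hu : ¬ p ^ 2 ∣ ∑ k ∈ range (Nat.card (K ≃ₐ[ℚ] K)), u ^ k)
    (ε₁ ε₂ δ₁ δ₂ : (𝓞 K)ˣ) (h₁ : sU σ ε₁ = ε₁ ^ u * δ₁ ^ p) (h₂ : sU σ ε₂ = ε₂ ^ u * δ₂ ^ p) :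
    ∃ a b : ℤ, ¬ ((p : ℤ) ∣ a ∧ (p : ℤ) ∣ b) ∧
      ∃ δ : (𝓞 K)ˣ, ε₁ ^ a * ε₂ ^ b / δ ^ p ∈ torsion K := by
  have hc0 : ∑ k ∈ range (Nat.card (K ≃ₐ[ℚ] K)), u ^ k ≠ 0 := by
    intro h
    exact hu (h ▸ dvd_zero _)
  obtain ⟨u₀, hu₀⟩ := exists_finiteIndex σ hσ
  have H1 : ∀ x : (𝓞 K)ˣ, QuotientGroup.mk' (torsion K)
      (∏ k ∈ range (Nat.card (K ≃ₐ[ℚ] K)), (sU σ)^[k] x) = 1 := by
    intro ε
    rw [QuotientGroup.mk'_apply, QuotientGroup.eq_one_iff, torsion, CommGroup.mem_torsion,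
      isOfFinOrder_iff_pow_eq_one]
    exact ⟨2, by norm_num, prod_iter_sq σ hσ ε⟩
  obtain ⟨a, b, hab, δ, hδ⟩ := abstract_quot (QuotientGroup.mk' (torsion K))
    (QuotientGroup.mk'_surjective _) (sU σ) (sBar σ) (fun x => sBar_mk σ x) H1
    (fun x hx => core_H2 hc0 x hx) hu u₀ hu₀.index_ne_zero ε₁ ε₂ δ₁ δ₂ h₁ h₂
  refine ⟨a, b, hab, δ, ?_⟩
  rwa [QuotientGroup.mk'_apply, QuotientGroup.eq_one_iff] at hδ


theorem torsion_pow {p : ℕ} [hp : Fact p.Prime] [IsCyclotomicExtension {p} ℚ K] (hp2 : p ≠ 2)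
    {x : (𝓞 K)ˣ} (hx : x ∈ torsion K) : x ^ (2 * p) = 1 := by
  have : NeZero p := ⟨hp.out.ne_zero⟩
  have h := IsCyclotomicExtension.Rat.torsionOrder_eq (n := p) (K := K)
  rw [if_neg (by
    rw [Nat.not_even_iff_odd]; exact hp.out.odd_of_ne_two hp2)] at h
  have h2 : (⟨x, hx⟩ : torsion K) ^ Nat.card (torsion K) = 1 := pow_card_eq_one'
  rw [← h]
  exact congrArg Subtype.val h2

theorem kill_torsion {p : ℕ} [hp : Fact p.Prime] [IsCyclotomicExtension {p} ℚ K] (hp2 : p ≠ 2)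
    (σ : K ≃ₐ[ℚ] K) (t : ℕ) (hσ : ∀ x : K, x ^ p = 1 → σ x = x ^ t)
    (hcop : Nat.Coprime (t ^ 2 - t) p) (τ γ : (𝓞 K)ˣ) (hτ : τ ∈ torsion K)
    (h : sU σ τ = τ ^ (t ^ 2) * γ ^ p) : τ ^ 2 = 1 := by
  have hγp : γ ^ p ∈ torsion K := by
    have : γ ^ p = sU σ τ / τ ^ (t ^ 2) := by rw [h, mul_div_cancel_left]
    rw [this]
    exact div_mem (torsion_le_comap σ hτ) (pow_mem hτ _)
  have hγ : γ ∈ torsion K := by
    rw [torsion, CommGroup.mem_torsion] at hγp ⊢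
    exact hγp.of_pow hp.out.ne_zero
  have hγ2 : (γ ^ p) ^ 2 = 1 := by
    rw [← pow_mul, mul_comm]; exact torsion_pow hp2 hγ
  have hτp : (τ ^ 2) ^ p = 1 := by
    rw [← pow_mul]; exact torsion_pow hp2 hτ
  have e1 : sU σ (τ ^ 2) = (τ ^ 2) ^ (t ^ 2) := by
    rw [map_pow, h, mul_pow, hγ2, mul_one, ← pow_mul, ← pow_mul, mul_comm]
  have e2 : sU σ (τ ^ 2) = (τ ^ 2) ^ t := by
    apply units_ext
    rw [coe_sU, hσ]
    · simp
    · have := congrArg (fun z : (𝓞 K)ˣ => (z : K)) hτp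
      simpa using this
  have htt : t ≤ t ^ 2 := by nlinarith [Nat.zero_le t]
  have e3 : (τ ^ 2) ^ (t ^ 2 - t) = 1 := by
    have : (τ ^ 2) ^ (t ^ 2 - t) * (τ ^ 2) ^ t = (τ ^ 2) ^ t := by
      rw [← pow_add, Nat.sub_add_cancel htt, ← e1, e2]
    exact mul_eq_right.mp this
  have h1 := orderOf_dvd_of_pow_eq_one e3
  have h2 := orderOf_dvd_of_pow_eq_one hτp
  have := Nat.eq_one_of_dvd_coprimes hcop h1 h2
  exact orderOf_eq_one_iff.mp this


theorem comm_identity {G : Type*} [CommGroup G] (e1 e2 d1 d2 d sd : G) (a b : ℤ) (T p : ℕ) :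
    (e1 ^ T * d1 ^ p) ^ a * (e2 ^ T * d2 ^ p) ^ b / sd ^ p =
      (e1 ^ a * e2 ^ b / d ^ p) ^ T * (d1 ^ a * d2 ^ b * d ^ T / sd) ^ p := by
  apply Additive.ofMul.injective
  simp only [ofMul_mul, ofMul_div, ofMul_pow, ofMul_zpow]
  module

theorem comm_identity₂ {G : Type*} [CommGroup G] (e d : G) (T p : ℕ) :
    e ^ T * d ^ p = e ^ (T + p) * (d / e) ^ p := by
  apply Additive.ofMul.injective
  simp only [ofMul_mul, ofMul_div, ofMul_pow]
  module

theorem comm_identity₃ {G : Type*} [CommGroup G] (e1 e2 d : G) (a b qa qb : ℤ) (ra rb p : ℕ)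
    (ha : 2 * a = ra + p * qa) (hb : 2 * b = rb + p * qb)
    (h : (e1 ^ a * e2 ^ b / d ^ p) ^ 2 = 1) :
    e1 ^ ra * e2 ^ rb = (d ^ 2 / (e1 ^ qa * e2 ^ qb)) ^ p := by
  have h1 : e1 ^ (2 * a) * e2 ^ (2 * b) = (d ^ 2) ^ p := by
    have : (e1 ^ a * e2 ^ b / d ^ p) ^ 2 = e1 ^ (2 * a) * e2 ^ (2 * b) / (d ^ 2) ^ p := by
      apply Additive.ofMul.injective
      simp only [ofMul_mul, ofMul_div, ofMul_pow, ofMul_zpow]
      module
    rw [this, div_eq_one] at h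
    exact h
  rw [ha, hb] at h1
  have h2 : e1 ^ ((ra : ℤ) + p * qa) * e2 ^ ((rb : ℤ) + p * qb) =
      e1 ^ ra * e2 ^ rb * (e1 ^ qa * e2 ^ qb) ^ p := by
    apply Additive.ofMul.injective
    simp only [ofMul_mul, ofMul_pow, ofMul_zpow]
    module
  rw [h2] at h1
  rw [div_pow, ← h1, mul_div_cancel_right]

end UnitsDim

open NumberField

variable {K : Type*} [Field K] [NumberField K]

open UnitsDim in
theorem units_dim_le_one {p : ℕ} [Fact p.Prime] [IsCyclotomicExtension {p} ℚ K] {ζ : K}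
    (hζ : IsPrimitiveRoot ζ p) (hp5 : 5 ≤ p) (ε₁ ε₂ : (𝓞 K)ˣ)
    (h₁ : IsUnitTypeSq p ζ ε₁) (h₂ : IsUnitTypeSq p ζ ε₂) :
    ∃ a b : ℕ, ¬ (p ∣ a ∧ p ∣ b) ∧ ∃ δ : (𝓞 K)ˣ, ε₁ ^ a * ε₂ ^ b = δ ^ p := by
  classical
  have hpp : p.Prime := Fact.out
  have hp2 : p ≠ 2 := by omega
  have : NeZero p := ⟨hpp.ne_zero⟩
  have : IsGalois ℚ K := IsCyclotomicExtension.isGalois {p} ℚ K
  let e := IsCyclotomicExtension.Rat.galEquivZMod p K
  have : IsCyclic (K ≃ₐ[ℚ] K) := isCyclic_of_surjective e.symm e.symm.surjective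
  obtain ⟨σ, hσ⟩ := IsCyclic.exists_generator (α := K ≃ₐ[ℚ] K)
  have hcard : Nat.card (K ≃ₐ[ℚ] K) = p - 1 := by
    rw [Nat.card_congr e.toEquiv, Nat.card_eq_fintype_card, ZMod.card_units]
  set t := (e σ).val.val with ht
  have hσx : ∀ x : K, x ^ p = 1 → σ x = x ^ t := fun x hx =>
    IsCyclotomicExtension.Rat.galEquivZMod_apply_of_pow_eq p K σ hx
  have htc : (t : ZMod p) = (e σ).val := ZMod.natCast_zmod_val _
  have ht0 : (t : ZMod p) ≠ 0 := by rw [htc]; exact (e σ).ne_zero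
  have ht1 : (t : ZMod p) ≠ 1 := by
    rw [htc]
    intro h
    have h1 : e σ = 1 := Units.ext h
    have h2 : σ = 1 := by simpa using h1
    have h3 : Nat.card (K ≃ₐ[ℚ] K) = 1 := by
      rw [Nat.card_eq_one_iff_unique]
      refine ⟨⟨fun a b => ?_⟩, ⟨1⟩⟩
      have ha := hσ a
      have hb := hσ b
      rw [h2, Subgroup.zpowers_one_eq_bot, Subgroup.mem_bot] at ha hb
      rw [ha, hb]
    omega
  have htt : t ≤ t ^ 2 := by nlinarith [Nat.zero_le t]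
  have hcop : Nat.Coprime (t ^ 2 - t) p := by
    refine Nat.Coprime.symm ((Nat.Prime.coprime_iff_not_dvd hpp).mpr ?_)
    intro h
    rw [← ZMod.natCast_eq_zero_iff, Nat.cast_sub htt, Nat.cast_pow] at h
    have : (t : ZMod p) * ((t : ZMod p) - 1) = 0 := by rw [← h]; ring
    rcases mul_eq_zero.mp this with h | h
    · exact ht0 h
    · exact ht1 (sub_eq_zero.mp h)
  have hnd : ¬ p ∣ t ^ 2 := by
    rw [← ZMod.natCast_eq_zero_iff, Nat.cast_pow]
    exact pow_ne_zero _ ht0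
  obtain ⟨δ₁, hδ₁⟩ := h₁ σ t (hσx ζ hζ.pow_eq_one)
  obtain ⟨δ₂, hδ₂⟩ := h₂ σ t (hσx ζ hζ.pow_eq_one)
  have key : ∃ a b : ℤ, ¬ ((p : ℤ) ∣ a ∧ (p : ℤ) ∣ b) ∧
      ∃ δ : (𝓞 K)ˣ, ε₁ ^ a * ε₂ ^ b / δ ^ p ∈ NumberField.Units.torsion K := by
    rcases arith (p := p) (t ^ 2) hnd with hu | hu
    · exact core σ hσ (t ^ 2) (by rw [hcard]; exact hu) ε₁ ε₂ δ₁ δ₂ hδ₁ hδ₂
    · exact core σ hσ (t ^ 2 + p) (by rw [hcard]; exact hu) ε₁ ε₂ (δ₁ / ε₁) (δ₂ / ε₂)
        (by rw [← comm_identity₂]; exact hδ₁) (by rw [← comm_identity₂]; exact hδ₂)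
  obtain ⟨a, b, hab, δ, hδ⟩ := key
  have hτ : sU σ (ε₁ ^ a * ε₂ ^ b / δ ^ p) = (ε₁ ^ a * ε₂ ^ b / δ ^ p) ^ (t ^ 2) *
      (δ₁ ^ a * δ₂ ^ b * δ ^ (t ^ 2) / sU σ δ) ^ p := by
    rw [← comm_identity, map_div, map_mul, map_zpow, map_zpow, map_pow]
    rw [show sU σ ε₁ = _ from hδ₁, show sU σ ε₂ = _ from hδ₂]
  have hsq := kill_torsion hp2 σ t hσx hcop _ _ hδ hτ
  have hpZ : (0 : ℤ) < p := by exact_mod_cast hpp.pos
  refine ⟨((2 * a) % p).toNat, ((2 * b) % p).toNat, ?_, _, comm_identity₃ ε₁ ε₂ δ a b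
    ((2 * a) / p) ((2 * b) / p) _ _ p ?_ ?_ hsq⟩
  · rintro ⟨ha, hb⟩
    apply hab
    have h2p : IsCoprime (p : ℤ) 2 := by
      rw [Int.isCoprime_iff_gcd_eq_one]
      have : Nat.Coprime p 2 := (Nat.Prime.coprime_iff_not_dvd hpp).mpr (fun h => by
        have := Nat.le_of_dvd (by norm_num) h; omega)
      simpa [Int.gcd] using this
    constructor
    · have h1 : (p : ℤ) ∣ (2 * a) % p := by
        have := Int.natCast_dvd_natCast.mpr ha
        rwa [Int.toNat_of_nonneg (Int.emod_nonneg _ hpZ.ne')] at this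
      exact h2p.dvd_of_dvd_mul_left ((Int.dvd_iff_emod_eq_zero).mpr (by
        have := Int.emod_emod_of_dvd (2 * a) (dvd_refl (p : ℤ))
        rw [← this]; exact (Int.dvd_iff_emod_eq_zero).mp h1))
    · have h1 : (p : ℤ) ∣ (2 * b) % p := by
        have := Int.natCast_dvd_natCast.mpr hb
        rwa [Int.toNat_of_nonneg (Int.emod_nonneg _ hpZ.ne')] at this
      exact h2p.dvd_of_dvd_mul_left ((Int.dvd_iff_emod_eq_zero).mpr (by
        have := Int.emod_emod_of_dvd (2 * b) (dvd_refl (p : ℤ))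
        rw [← this]; exact (Int.dvd_iff_emod_eq_zero).mp h1))
  · rw [Int.toNat_of_nonneg (Int.emod_nonneg _ hpZ.ne')]
    exact (Int.emod_add_mul_ediv _ _).symm
  · rw [Int.toNat_of_nonneg (Int.emod_nonneg _ hpZ.ne')]
    exact (Int.emod_add_mul_ediv _ _).symm

end Fermat.Agent.S14
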