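import Fermat.Agent.S14.CoreStatement
import Fermat.Agent.S14.CoreLemmas
import Fermat.Agent.S14.LocalCond
import Fermat.Agent.S14.ClassHom
import Fermat.Agent.S14.Thaine
import Fermat.Agent.S14.Eta
import Fermat.Agent.S14.UnitsDim
import Fermat.Agent.S14.PThree
import Fermat.Agent.S14.Density.Main

/-!
# S14, task T12: assembly of the core theorem
-/

set_option autoImplicit false

namespace Fermat.Agent.S14

open NumberField IsDedekindDomain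

variable {K : Type*} [Field K] [NumberField K]

/-- C2: `η` is not a `p`-th power in `K`. -/
theorem eta_not_pow {p : ℕ} [Fact p.Prime] [IsCyclotomicExtension {p} ℚ K] {ζ : K}
    (hζ : IsPrimitiveRoot ζ p) (hp5 : 5 ≤ p) :
    ¬ ∃ x : K, x ^ p = ((etaElt p hζ.toInteger : 𝓞 K) : K) := by
  have hp0 : p ≠ 0 := by omega
  obtain ⟨u, m, hu, -, hcong⟩ := exists_etaUnit hζ hp5
  rintro ⟨x, hx⟩
  have h1 : ((1 - hζ.toInteger : 𝓞 K) : K) ≠ 0 := by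
    have h2 : ((1 - hζ.toInteger : 𝓞 K) : K) = 1 - ζ := by
      push_cast; rfl
    rw [h2, sub_ne_zero]
    exact fun h => hζ.ne_one (by omega) h.symm
  have h3 : (x / ((1 - hζ.toInteger : 𝓞 K) : K) ^ m) ^ p = ((u : 𝓞 K) : K) := by
    rw [div_pow, hx, hu, div_eq_iff (pow_ne_zero _ (pow_ne_zero _ h1))]
    push_cast
    ring
  obtain ⟨δ, hδ⟩ := exists_unit_of_pow_eq hp0 _ u h3
  have hud : u = δ ^ p := by
    ext
    rw [← h3, ← hδ]
    push_cast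
    rfl
  have h4 := hcong 1 δ⁻¹ 1 (by
    have : u ^ 1 * δ⁻¹ ^ p = 1 := by rw [hud]; simp
    rw [this]; simp)
  have := Nat.le_of_dvd one_pos h4
  omega

theorem principal_of_type {p : ℕ} [Fact p.Prime] [IsCyclotomicExtension {p} ℚ K] {ζ : K}
    (hζ : IsPrimitiveRoot ζ p) (hp5 : 5 ≤ p) (I : Ideal (𝓞 K)) (hI0 : I ≠ ⊥)
    (hIp : (I ^ p).IsPrincipal)
    (htype : ∀ (σ : K ≃ₐ[ℚ] K) (t : ℕ), σ ζ = ζ ^ t → ∃ x y : 𝓞 K, x ≠ 0 ∧ y ≠ 0 ∧
      Ideal.span {x} * I.map (sigO σ : 𝓞 K →+* 𝓞 K) = Ideal.span {y} * I ^ (t ^ 2)) :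
    I.IsPrincipal := by
  by_contra hnp
  obtain ⟨φ, hsurj, hφ⟩ := exists_phi hζ I hI0 hIp htype hnp
  obtain ⟨v, hv, hvp, hφv, hnot⟩ := exists_prime_of_not_pow K (by omega) hζ φ hsurj
    (etaElt p hζ.toInteger) (eta_not_pow hζ hp5)
  exact hnot (thaine hζ (by omega) φ hφ v hv hvp hφv)

theorem core {p : ℕ} [Fact p.Prime] [IsCyclotomicExtension {p} ℚ K] {ζ : K}
    (hζ : IsPrimitiveRoot ζ p) (hp5 : 5 ≤ p) (α : 𝓞 K) (hα : α ≠ 0) (I : Ideal (𝓞 K))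
    (hI : Ideal.span {α} = I ^ p) (htype : IsTypeSq p ζ (α : K))
    (hloc : ∀ (ε : (𝓞 K)ˣ) (γ : 𝓞 K), α = ε * γ ^ p →
      ∃ a : ℤ, (((ε⁻¹ : (𝓞 K)ˣ) : 𝓞 K) - (a : 𝓞 K)) ∈ (Ideal.span {hζ.toInteger - 1}) ^ 3) :
    ∃ γ : 𝓞 K, α = γ ^ p := by
  have hp0 : p ≠ 0 := by omega
  have hI0 : I ≠ ⊥ := by
    rintro rfl
    rw [Ideal.bot_pow hp0, Ideal.span_singleton_eq_bot] at hI
    exact hα hI
  have hprin := principal_of_type hζ hp5 I hI0 ⟨⟨α, hI.symm⟩⟩ (ideal_type hp0 α hα I hI htype)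
  obtain ⟨c, hc⟩ := hprin.principal
  have hc' : I = Ideal.span {c} := hc
  have hassoc : Associated (c ^ p) α := by
    rw [← Ideal.span_singleton_eq_span_singleton, hI, hc', Ideal.span_singleton_pow]
  obtain ⟨ε, hε⟩ := hassoc
  have hε' : α = ε * c ^ p := by rw [← hε, mul_comm]
  have hεt := unit_type hp0 α hα htype ε c hε'
  obtain ⟨a0, ha0⟩ := hloc ε c hε'
  obtain ⟨u, m, hu, hut, hcong⟩ := exists_etaUnit hζ hp5
  obtain ⟨a, b, hab, δ, hδ⟩ := units_dim_le_one hζ hp5 ε u hεt hut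
  have h1 : u ^ b * δ⁻¹ ^ p = ε⁻¹ ^ a := by
    have : u ^ b = δ ^ p * ε⁻¹ ^ a := by
      rw [← hδ, inv_pow]; simp
    rw [this, inv_pow, inv_pow]
    simp [mul_assoc]
  have h2 : (((ε⁻¹ ^ a : (𝓞 K)ˣ) : 𝓞 K) - ((a0 ^ a : ℤ) : 𝓞 K)) ∈
      (Ideal.span {hζ.toInteger - 1}) ^ 3 := by
    have := Ideal.mem_of_dvd _ (sub_dvd_pow_sub_pow ((ε⁻¹ : (𝓞 K)ˣ) : 𝓞 K) (a0 : 𝓞 K) a) ha0
    simpa using this
  have hb : p ∣ b := hcong b δ⁻¹ (a0 ^ a) (by rw [h1]; exact h2)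
  have ha : ¬ p ∣ a := fun h => hab ⟨h, hb⟩
  obtain ⟨b', rfl⟩ := hb
  have h3 : ε ^ a = (δ * (u ^ b')⁻¹) ^ p := by
    rw [mul_pow, ← hδ, inv_pow, ← pow_mul, mul_comm b' p]; simp
  have hcop : IsCoprime (a : ℤ) (p : ℤ) := by
    rw [Nat.isCoprime_iff_coprime]
    exact ((Nat.Prime.coprime_iff_not_dvd Fact.out).2 ha).symm
  obtain ⟨x, y, hxy⟩ := hcop
  have h4 : ε = ((δ * (u ^ b')⁻¹) ^ x * ε ^ y) ^ p := by
    have : ε = (ε ^ a) ^ x * (ε ^ y) ^ p := by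
      rw [← zpow_natCast ε a, ← zpow_mul, ← zpow_natCast (ε ^ y) p, ← zpow_mul, ← zpow_add,
        mul_comm (a : ℤ) x, hxy, zpow_one]
    rw [mul_pow, ← zpow_natCast (_ ^ x) p, ← zpow_mul, mul_comm x, zpow_mul, zpow_natCast, ← h3]
    exact this
  refine ⟨(((δ * (u ^ b')⁻¹) ^ x * ε ^ y : (𝓞 K)ˣ) : 𝓞 K) * c, ?_⟩
  rw [mul_pow, ← Units.val_pow_eq_pow_val, ← h4]
  exact hε'

theorem coreStatement {p : ℕ} [Fact p.Prime] (h3 : 3 ≤ p) : CoreStatement p := by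
  intro K _ _ _ ζ hζ α hα H1 H2 H3
  have hp0 : p ≠ 0 := by omega
  obtain ⟨d, α', hd, hα'⟩ := exists_integral_scale p hp0 α
  have hdK : (d : K) ≠ 0 := by simpa using hd
  have hα'0 : α' ≠ 0 := by
    intro h
    rw [h] at hα'
    have : α * (d : K) ^ p ≠ 0 := mul_ne_zero hα (pow_ne_zero _ hdK)
    exact this (by rw [← hα']; simp)
  have H1' : ∀ v : HeightOneSpectrum (𝓞 K), ∃ y : K,
      v.valuation K (α' : K) = v.valuation K y ^ p := fun v => by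
    obtain ⟨y, hy⟩ := H1 v
    exact ⟨y * d, by rw [hα', map_mul, map_pow, hy, map_mul, mul_pow]⟩
  have H3' : IsTypeSq p ζ (α' : K) := fun σ t ht => by
    obtain ⟨g, hg⟩ := H3 σ t ht
    refine ⟨g * σ d / (d : K) ^ (t ^ 2), ?_⟩
    rw [hα', map_mul, map_pow, hg, mul_pow, div_pow, mul_pow, ← pow_mul, ← pow_mul,
      mul_comm (t ^ 2) p]
    have : ((d : K) ^ (p * t ^ 2)) ≠ 0 := pow_ne_zero _ hdK
    field_simp
  obtain ⟨I, hI⟩ := exists_ideal_pow hp0 α' hα'0 H1'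
  have key : ∃ γ : 𝓞 K, α' = γ ^ p := by
    rcases Nat.lt_or_ge p 5 with h5 | h5
    · have hp3 : p = 3 := by
        have hp : p.Prime := Fact.out
        interval_cases p
        · rfl
        · exact absurd hp (by norm_num)
      subst hp3
      exact core_three hζ α' hα'0 I hI H3'
    · refine core hζ h5 α' hα'0 I hI H3' (fun ε γ h => local_condition hζ h5 α' hα'0 ?_ ε γ h)
      intro v hv
      obtain ⟨y, hy0, hy⟩ := H2 v hv 3
      refine ⟨y * d, mul_ne_zero hy0 hdK, ?_⟩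
      have : (α' : K) / (y * d) ^ p = α / y ^ p := by
        rw [hα', mul_pow, mul_div_mul_right _ _ (pow_ne_zero _ hdK)]
      rw [this]
      exact hy
  obtain ⟨γ, hγ⟩ := key
  refine ⟨γ / d, ?_⟩
  rw [div_pow, eq_div_iff (pow_ne_zero _ hdK), ← hα', hγ]
  simp

end Fermat.Agent.S14
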