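import Mathlib

/-!
# S14: the core arithmetic statement `CT`

`CoreStatement p` is the purely arithmetic heart of S14 (`ExtVanishingCts p`):
in `K = ℚ(ζ_p)`, an element `α` which is
* (H1) *singular*: every valuation of `α` is a `p`-th power of a valuation,
* (H2) a local `p`-th power (to any precision) at the prime(s) above `p`,
* (H3) of type `ω²`: `σ_t α = α ^ (t²) * g ^ p`,
is a `p`-th power.

The translation module (`Fermat/Agent/S14/TR/*`, owner helper23) proves
`CoreStatement p → ExtCitation.ExtVanishingCts p`.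
-/

set_option autoImplicit false

namespace Fermat.Agent.S14

open NumberField IsDedekindDomain

/-- The core arithmetic theorem (as a proposition). -/
def CoreStatement (p : ℕ) : Prop :=
  ∀ (K : Type) [Field K] [NumberField K] [IsCyclotomicExtension {p} ℚ K]
    (ζ : K) (_ : IsPrimitiveRoot ζ p) (α : K) (_ : α ≠ 0),
    (∀ v : HeightOneSpectrum (𝓞 K), ∃ y : K, v.valuation K α = v.valuation K y ^ p) →
    (∀ v : HeightOneSpectrum (𝓞 K), (p : 𝓞 K) ∈ v.asIdeal → ∀ n : ℕ, ∃ y : K, y ≠ 0 ∧
        v.valuation K (α / y ^ p - 1) ≤ WithZero.exp (-(n : ℤ))) →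
    (∀ (σ : K ≃ₐ[ℚ] K) (t : ℕ), σ ζ = ζ ^ t → ∃ g : K, σ α = α ^ (t ^ 2) * g ^ p) →
    ∃ b : K, α = b ^ p

end Fermat.Agent.S14
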