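import Mathlib

/-!
# S14: common definitions for the number-theoretic core

`K = ℚ(ζ_p)`.  An element `α` of `K` is of *type `ω²`* if `σ_t α = α^(t²) γ^p`.
-/

set_option autoImplicit false

namespace Fermat.Agent.S14

open NumberField

variable {K : Type*} [Field K] [NumberField K]

/-- the ring automorphism of `𝓞 K` induced by `σ`. -/
noncomputable abbrev sigO (σ : K ≃ₐ[ℚ] K) : 𝓞 K ≃+* 𝓞 K :=
  RingOfIntegers.mapRingEquiv σ.toRingEquiv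

/-- `α ∈ K` is of type `ω²` modulo `p`-th powers. -/
def IsTypeSq (p : ℕ) (ζ : K) (α : K) : Prop :=
  ∀ (σ : K ≃ₐ[ℚ] K) (t : ℕ), σ ζ = ζ ^ t → ∃ γ : K, σ α = α ^ (t ^ 2) * γ ^ p

/-- a unit `ε` is of type `ω²` modulo `p`-th powers of units. -/
def IsUnitTypeSq (p : ℕ) (ζ : K) (ε : (𝓞 K)ˣ) : Prop :=
  ∀ (σ : K ≃ₐ[ℚ] K) (t : ℕ), σ ζ = ζ ^ t →
    ∃ δ : (𝓞 K)ˣ, Units.map (sigO σ : 𝓞 K →* 𝓞 K) ε = ε ^ (t ^ 2) * δ ^ p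

/-- a homomorphism on the class group is of type `ω²`. -/
def IsHomTypeSq (p : ℕ) (ζ : K) (φ : ClassGroup (𝓞 K) →* Multiplicative (ZMod p)) : Prop :=
  ∀ (σ : K ≃ₐ[ℚ] K) (t : ℕ), σ ζ = ζ ^ t → ∀ J J' : nonZeroDivisors (Ideal (𝓞 K)),
    (J' : Ideal (𝓞 K)) = (J : Ideal (𝓞 K)).map (sigO σ : 𝓞 K →+* 𝓞 K) →
    φ (ClassGroup.mk0 J') = φ (ClassGroup.mk0 J) ^ (t ^ 2)

/-- the exponent `t⁻² mod p`. -/
def invSq (p t : ℕ) : ℕ := (((t : ZMod p)⁻¹) ^ 2).val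

/-- `η = ∏_{t=1}^{p-1} (1 - ζ^t)^(t⁻² mod p)`. -/
noncomputable def etaElt (p : ℕ) (z : 𝓞 K) : 𝓞 K :=
  ∏ t ∈ Finset.Ico 1 p, (1 - z ^ t) ^ invSq p t

end Fermat.Agent.S14
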