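import Fermat.Agent.S14.Defs
import Fermat.Agent.S14.Kappa.Cyclo
import Fermat.Agent.S14.Kappa.Gal
import Fermat.Agent.S14.Kappa.Hilbert
import Fermat.Agent.S14.Kappa.Local
import Fermat.Agent.S14.Kappa.Factor
import Fermat.Agent.S14.Kappa.Ram
import Fermat.Agent.S14.Kappa.Cong

/-!
# S14, task T02: Thaine's element `κ` (Hilbert 90 in `K(ζ_q)/K`)
-/

set_option autoImplicit false
set_option linter.style.haveILetI false

namespace Fermat.Agent.S14

open NumberField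

variable {K : Type*} [Field K] [NumberField K]

namespace Kappa

/-- finiteness of the multiplicity of a prime ideal in a nonzero principal ideal. -/
theorem exists_emultiplicity_eq {A : Type*} [CommRing A] [IsDedekindDomain A] (P : Ideal A)
    [P.IsPrime] (hP : P ≠ ⊥) (x : A) (hx : x ≠ 0) :
    ∃ n : ℕ, emultiplicity P (Ideal.span {x}) = n := by
  have hfin : FiniteMultiplicity P (Ideal.span {x}) :=
    FiniteMultiplicity.of_prime_left (Ideal.prime_of_isPrime hP inferInstance)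
      (by simpa using hx)
  exact ⟨multiplicity P (Ideal.span {x}), hfin.emultiplicity_eq_multiplicity⟩

theorem emultiplicity_unit_mul_pow {A : Type*} [CommRing A] [IsDedekindDomain A] (P : Ideal A)
    [P.IsPrime] (hP : P ≠ ⊥) (u : Aˣ) (x : A) (n : ℕ) :
    emultiplicity P (Ideal.span {(u : A) * x ^ n}) = n * emultiplicity P (Ideal.span {x}) := by
  have h1 : Ideal.span {(u : A) * x ^ n} = Ideal.span {x} ^ n := by
    rw [Ideal.span_singleton_mul_left_unit u.isUnit, Ideal.span_singleton_pow]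
  rw [h1, emultiplicity_pow (Ideal.prime_of_isPrime hP inferInstance)]

end Kappa

open Kappa in
/-- **Thaine's element.** `q ≡ 1 mod p`, `g` a primitive root mod `q`.  There is a principal
(fractional) ideal `(x)/(y)` which is, up to `p`-th powers of ideals, `∏_{𝔮 ∣ q} 𝔮 ^ r(𝔮)` with
`g ^ r(𝔮) ≡ 1 - ζ mod 𝔮`. -/
theorem exists_kappa {p : ℕ} [Fact p.Prime] [IsCyclotomicExtension {p} ℚ K] {ζ : K}
    (hζ : IsPrimitiveRoot ζ p) (hp2 : p ≠ 2) (q : ℕ) (hq : q.Prime) (hqp : p ∣ q - 1) (g : ℕ)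
    (hg : orderOf (g : ZMod q) = q - 1) :
    ∃ (S : Finset (Ideal (𝓞 K))) (r : Ideal (𝓞 K) → ℕ) (x y : 𝓞 K) (B₁ B₂ : Ideal (𝓞 K)),
      (∀ 𝔮 : Ideal (𝓞 K), 𝔮 ∈ S ↔ 𝔮.IsPrime ∧ (q : 𝓞 K) ∈ 𝔮) ∧
      x ≠ 0 ∧ y ≠ 0 ∧ B₁ ≠ ⊥ ∧ B₂ ≠ ⊥ ∧
      Ideal.span {x} * B₂ ^ p = Ideal.span {y} * B₁ ^ p * ∏ 𝔮 ∈ S, 𝔮 ^ r 𝔮 ∧
      ∀ 𝔮 ∈ S, (g : 𝓞 K) ^ r 𝔮 - (1 - hζ.toInteger) ∈ 𝔮 := by
  classical
  have hp : p.Prime := Fact.out
  haveI : Fact q.Prime := ⟨hq⟩
  have hpq : p ≠ q := by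
    rintro rfl
    have h1 : p ≤ p - 1 := Nat.le_of_dvd (by have := hp.two_le; omega) hqp
    have := hp.two_le
    omega
  have hq1 : q - 1 ≠ 0 := by have := hq.two_le; omega
  -- the field `L = K(ζ_q)`
  let L := CyclotomicField q K
  have hirr : Irreducible (Polynomial.cyclotomic q K) := irreducible_cyclotomic hp hq hpq
  have hfr : Module.finrank K L = q - 1 := finrank_eq L hp hq hpq
  haveI : IsGalois K L := IsCyclotomicExtension.isGalois {q} K L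
  have hζq : IsPrimitiveRoot (IsCyclotomicExtension.zeta q K L) q :=
    IsCyclotomicExtension.zeta_spec q K L
  set ζq : L := IsCyclotomicExtension.zeta q K L with hζq_def
  set zq : 𝓞 L := hζq.toInteger with hzq_def
  have hzq : IsPrimitiveRoot zq q := hζq.toInteger_isPrimitiveRoot
  set z : 𝓞 K := hζ.toInteger with hz_def
  have hzqc : (zq : L) = ζq := hζq.coe_toInteger
  have hzc : (z : K) = ζ := hζ.coe_toInteger
  obtain ⟨τ, hτζ, hτgen⟩ := exists_tau hq hirr hζq g hg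
  have hτzq : resO τ zq = zq ^ g := by
    apply RingOfIntegers.ext
    rw [coe_resO]
    change τ (zq : L) = algebraMap (𝓞 L) L (zq ^ g)
    rw [map_pow]
    change τ (zq : L) = (zq : L) ^ g
    rw [hzqc]
    exact hτζ
  set ξ : 𝓞 L := 1 - algebraMap (𝓞 K) (𝓞 L) z * zq with hξ_def
  have hξn : Algebra.norm K (ξ : L) = 1 := by
    have h1 := norm_xi hp hq hqp hirr hζ hζq
    have h2 : (ξ : L) = 1 - algebraMap K L ζ * ζq := by
      change algebraMap (𝓞 L) L ξ = _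
      rw [hξ_def, map_sub, map_one, map_mul, ← IsScalarTower.algebraMap_apply,
        IsScalarTower.algebraMap_apply (𝓞 K) K L]
      change 1 - algebraMap K L (z : K) * (zq : L) = _
      rw [hzqc, hzc]
    rw [h2]
    exact h1
  obtain ⟨β, κ, u, hβ0, hτβ, hκ⟩ := exists_beta τ hτgen ξ hξn
  rw [hfr] at hκ
  have hκ0 : κ ≠ 0 := by
    rintro rfl
    rw [map_zero] at hκ
    exact (mul_ne_zero u.ne_zero (pow_ne_zero _ hβ0)) hκ.symm
  have hτξ : resO τ ξ = 1 - algebraMap (𝓞 K) (𝓞 L) z * zq ^ g := by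
    rw [hξ_def, map_sub, map_one, map_mul, hτzq, AlgEquiv.commutes]
  -- the primes over `q`
  have hq0 : (q : 𝓞 K) ≠ 0 := Nat.cast_ne_zero.mpr hq.ne_zero
  let S : Finset (Ideal (𝓞 K)) :=
    (UniqueFactorizationMonoid.normalizedFactors (Ideal.span {(q : 𝓞 K)})).toFinset
  have hS : ∀ 𝔮 : Ideal (𝓞 K), 𝔮 ∈ S ↔ 𝔮.IsPrime ∧ (q : 𝓞 K) ∈ 𝔮 := by
    intro 𝔮
    rw [Multiset.mem_toFinset, Ideal.mem_normalizedFactors_iff (by simpa using hq0),
      Ideal.span_singleton_le_iff_mem]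
  have hSbot : ∀ 𝔮 ∈ S, 𝔮 ≠ ⊥ := by
    rintro 𝔮 h𝔮 rfl
    exact hq0 (by simpa using ((hS _).1 h𝔮).2)
  have hr : ∀ 𝔮 : Ideal (𝓞 K), ∃ n : ℕ, 𝔮 ∈ S → emultiplicity 𝔮 (Ideal.span {κ}) = n := by
    intro 𝔮
    by_cases h𝔮 : 𝔮 ∈ S
    · haveI := ((hS _).1 h𝔮).1
      obtain ⟨n, hn⟩ := exists_emultiplicity_eq 𝔮 (hSbot 𝔮 h𝔮) κ hκ0
      exact ⟨n, fun _ => hn⟩
    · exact ⟨0, fun h => absurd h h𝔮⟩
  choose r hr using hr
  obtain ⟨B₁, hB₁, hfac⟩ := exists_factorization κ hκ0 p hp.ne_zero S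
    (fun 𝔮 h𝔮 => ⟨((hS _).1 h𝔮).1, hSbot 𝔮 h𝔮⟩) r hr (by
      intro P hPprime hPbot hPS
      haveI := hPprime
      have hqP : (q : 𝓞 K) ∉ P := fun h => hPS ((hS P).2 ⟨hPprime, h⟩)
      haveI : P.IsMaximal := hPprime.isMaximal hPbot
      obtain ⟨P', hP'max, hP'over⟩ := Ideal.exists_maximal_ideal_liesOver_of_isIntegral P (S := 𝓞 L)
      haveI := hP'max.isPrime
      have hP'bot : P' ≠ ⊥ := Ideal.ne_bot_of_liesOver_of_ne_bot hPbot P'
      obtain ⟨n, hn⟩ := exists_emultiplicity_eq P' hP'bot β hβ0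
      obtain ⟨c, hc⟩ := hqp
      refine ⟨c * n, ?_⟩
      rw [← emultiplicity_of_not_mem hp hq hpq P P' hPbot hqP κ hκ0, hκ,
        emultiplicity_unit_mul_pow P' hP'bot, hn, hc]
      push_cast
      ring)
  refine ⟨S, r, κ, 1, B₁, ⊤, hS, hκ0, one_ne_zero, hB₁, top_ne_bot, ?_, ?_⟩
  · rw [hfac, ← Ideal.one_eq_top, one_pow, mul_one, Ideal.span_singleton_one, ← Ideal.one_eq_top,
      one_mul]
  · intro 𝔮 h𝔮
    haveI := ((hS _).1 h𝔮).1
    have hq𝔮 : (q : 𝓞 K) ∈ 𝔮 := ((hS _).1 h𝔮).2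
    haveI : 𝔮.IsMaximal := ((hS _).1 h𝔮).1.isMaximal (hSbot 𝔮 h𝔮)
    obtain ⟨Q', hQ'max, hQ'over⟩ := Ideal.exists_maximal_ideal_liesOver_of_isIntegral 𝔮 (S := 𝓞 L)
    haveI := hQ'max.isPrime
    have hQ'bot : Q' ≠ ⊥ := Ideal.ne_bot_of_liesOver_of_ne_bot (hSbot 𝔮 h𝔮) Q'
    have hqQ' : (q : 𝓞 L) ∈ Q' := by
      have h1 : algebraMap (𝓞 K) (𝓞 L) (q : 𝓞 K) ∈ Q' := by
        rw [← Ideal.mem_comap, ← Ideal.under_def, ← hQ'over.over]
        exact hq𝔮
      simpa using h1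
    have hπ := emultiplicity_pi (K := K) hp hq hpq Q' hqQ' zq hzq
    have hπmem : (1 - zq) ∈ Q' := by
      have h1 : Q' ∣ Ideal.span {1 - zq} := by
        apply dvd_of_emultiplicity_pos
        rw [hπ]
        exact one_pos
      exact (Ideal.span_singleton_le_iff_mem _).1 (Ideal.le_of_dvd h1)
    have hle : Ideal.span {1 - zq} ≤ Q' := (Ideal.span_singleton_le_iff_mem _).2 hπmem
    obtain ⟨n, hn⟩ := exists_emultiplicity_eq Q' hQ'bot β hβ0
    have hnr : n = r 𝔮 := by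
      have h1 := emultiplicity_of_mem hp hq hpq 𝔮 Q' hq𝔮 κ hκ0
      rw [hκ, emultiplicity_unit_mul_pow Q' hQ'bot, hn, hr 𝔮 h𝔮] at h1
      have h2 : (q - 1) * n = (q - 1) * r 𝔮 := by exact_mod_cast h1
      exact Nat.eq_of_mul_eq_mul_left (Nat.pos_of_ne_zero hq1) h2
    have hmain := local_cong Q' hQ'bot (resO τ).toRingEquiv (1 - zq)
      (∑ i ∈ Finset.range g, zq ^ i) (resO τ ξ) β g n hπ
      (fun y => hle (resO_sub_mem (K := K) hp hq hpq zq hzq τ y))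
      (by
        show resO τ (1 - zq) = _
        rw [map_sub, map_one, hτzq, mul_comm, geom_sum_mul_neg])
      (by
        have h1 : ∀ i : ℕ, zq ^ i - 1 ∈ Q' := by
          intro i
          have : zq - 1 ∣ zq ^ i - 1 := by simpa using sub_dvd_pow_sub_pow zq 1 i
          apply Ideal.mem_of_dvd _ this
          have := Q'.neg_mem hπmem
          simpa using this
        have h2 : (∑ i ∈ Finset.range g, zq ^ i) - (g : 𝓞 L)
            = ∑ i ∈ Finset.range g, (zq ^ i - 1) := by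
          simp [Finset.sum_sub_distrib]
        rw [h2]
        exact Q'.sum_mem fun i _ => h1 i)
      hn hτβ
    rw [hτξ, hnr] at hmain
    -- descend to `𝔮`
    have h3 : algebraMap (𝓞 K) (𝓞 L) ((g : 𝓞 K) ^ r 𝔮 - (1 - z)) ∈ Q' := by
      have h4 : zq ^ g - 1 ∈ Q' := by
        have : zq - 1 ∣ zq ^ g - 1 := by simpa using sub_dvd_pow_sub_pow zq 1 g
        apply Ideal.mem_of_dvd _ this
        have := Q'.neg_mem hπmem
        simpa using this
      have h5 : algebraMap (𝓞 K) (𝓞 L) ((g : 𝓞 K) ^ r 𝔮 - (1 - z))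
          = -((1 - algebraMap (𝓞 K) (𝓞 L) z * zq ^ g) - (g : 𝓞 L) ^ r 𝔮)
            - algebraMap (𝓞 K) (𝓞 L) z * (zq ^ g - 1) := by
        simp only [map_sub, map_pow, map_natCast, map_one]
        ring
      rw [h5]
      exact Q'.sub_mem (Q'.neg_mem hmain) (Q'.mul_mem_left _ h4)
    rw [← Ideal.mem_comap, ← Ideal.under_def, ← hQ'over.over] at h3
    exact h3

end Fermat.Agent.S14
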